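import Fermat.Agent.TateRep.MultPrime
import Fermat.Agent.EC.DetFrobenius
import Fermat.Agent.Assembly.Vocabulary

/-!
# The trace of Frobenius at a multiplicative prime
-/

set_option autoImplicit false

noncomputable section

open WeierstrassCurve
open scoped WeierstrassCurve.Affine

namespace FermatAgent.Assembly

open FermatAgent.TateRep

/-- **At a multiplicative prime `q ≠ p` the trace of Frobenius on `E[p]` is `ε (q + 1)`**,
`ε = a_q - 1` being a sign. -/
theorem multFrobenius (W : WeierstrassCurve ℤ) (p q : ℕ) (hΔ0 : W.Δ ≠ 0)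
    (hW : W.IsSemistableModel) (hp : p.Prime) (hq : q.Prime) (hqp : q ≠ p)
    (hbad : ¬ W.IsGoodPrimeFor q) :
    multSign W q ^ 2 = 1 ∧ ∀ A : ValuationSubring (AlgebraicClosure ℚ), A.LiesOverPrime q →
      ∀ σ : AlgebraicClosure ℚ ≃ₐ[ℚ] AlgebraicClosure ℚ, A.IsFrobeniusAt σ q →
        Affine.Point.galoisTrace ℚ (W.map (Int.castRingHom ℚ)).toAffine p σ =
          ((multSign W q * (q + 1) : ℤ) : ZMod p) := by
  classical
  have hΔ : (q : ℤ) ∣ W.Δ := not_not.1 hbad
  have hc4 := hW q hq hΔ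
  have := Fact.mk hp
  have := Fact.mk hq
  obtain ⟨A, hA⟩ := GaloisBasic.exists_liesOverPrime hq
  obtain ⟨σ, hσ⟩ := GaloisBasic.exists_isFrobeniusAt hq hA
  refine ⟨(frobenius_eq_zsmul hq hA hΔ0 hΔ hc4 hσ).1, fun A hA σ hσ => ?_⟩
  obtain ⟨hsq, hfr⟩ := frobenius_eq_zsmul hq hA hΔ0 hΔ hc4 hσ
  rw [← multSign] at hsq hfr
  set ε := multSign W q with hε
  obtain ⟨⟨P, hP, h0⟩, hP0⟩ : ∃ P : {P : ((W.map (Int.castRingHom ℚ))⁄(AlgebraicClosure ℚ)).Point //
      p • P = 0 ∧ ECLocal.IsE0 (ECLocal.toGen W A P)}, P.1 ≠ 0 := by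
    by_contra hall
    push Not at hall
    have h := le_natCard_torsion_isE0 hq hA hΔ0 hΔ hc4 hp.pos
    have : Subsingleton {P : ((W.map (Int.castRingHom ℚ))⁄(AlgebraicClosure ℚ)).Point //
      p • P = 0 ∧ ECLocal.IsE0 (ECLocal.toGen W A P)} :=
      ⟨fun a b => Subtype.ext ((hall a).trans (hall b).symm)⟩
    exact absurd (h.trans (Finite.card_le_one_iff_subsingleton.2 inferInstance)) hp.one_lt.not_ge
  have hΔ' := EC.intMap_Δ_ne_zero hΔ0
  have hq0 : (q : ZMod p) ≠ 0 := fun h =>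
    hqp ((Nat.prime_dvd_prime_iff_eq hp hq).1 ((ZMod.natCast_eq_zero_iff q p).1 h)).symm
  have hε0 : (ε : ZMod p) ≠ 0 := fun h => one_ne_zero (α := ZMod p)
    (by have := congrArg (Int.cast : ℤ → ZMod p) hsq; push_cast at this; rw [← this, h]; ring)
  set v : Submodule.torsionBy ℤ ((W.map (Int.castRingHom ℚ))⁄(AlgebraicClosure ℚ)).Point p :=
    ⟨P, (Submodule.mem_torsionBy_iff _ _).2 (by rw [natCast_zsmul]; exact hP)⟩ with hv
  have hfv : Affine.Point.galoisRepModuleEnd (K := AlgebraicClosure ℚ) ℚ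
      (W.map (Int.castRingHom ℚ)).toAffine p σ v = ((ε * q : ℤ) : ZMod p) • v := by
    rw [Affine.Point.galoisRepModuleEnd_apply, Int.cast_smul_eq_zsmul]
    exact Subtype.ext (hfr p P (fun hd => hqp ((Nat.prime_dvd_prime_iff_eq hq hp).1 hd)) h0 hP)
  have hrank := EC.finrank_torsionBy_rat _ hΔ' p
  have := Module.finite_of_finrank_eq_succ hrank
  rw [Affine.Point.galoisTrace_def,
    EC.trace_eq_of_eigenvector (Module.finBasisOfFinrankEq (ZMod p) _ hrank) _
    (fun h => hP0 (congrArg Subtype.val h)) (c := ((ε * q : ℤ) : ZMod p)) (d := (ε : ZMod p))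
    (by push_cast; exact mul_ne_zero hε0 hq0) hfv ?_]
  · push_cast; ring
  · rw [EC.det_frobenius hΔ0 hq hqp hA hσ]
    have := congrArg (Int.cast : ℤ → ZMod p) hsq
    push_cast at this ⊢
    linear_combination -(q : ZMod p) * this

end FermatAgent.Assembly
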