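import Fermat.Agent.TateRep.MultPrime
import Fermat.Agent.Flat.Model
import Fermat.Agent.Flat.Closure
import Fermat.Agent.Flat.LinAlg

/-!
# Coordinates on torsion at a place of good reduction

The normalised projective coordinates of the torsion points form a system of integral coordinates
at a place of good reduction: addition is given by one formula through an auxiliary point.
-/

set_option autoImplicit false

noncomputable section

open WeierstrassCurve
open scoped WeierstrassCurve.Affine

namespace FermatAgent.TateRep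

open FermatAgent.ECLocal

local notation "Qbar" => AlgebraicClosure ℚ
local notation "GQ" => AlgebraicClosure ℚ ≃ₐ[ℚ] AlgebraicClosure ℚ

section Functions

variable {X K : Type*} [Finite X] [Field K] {A : ValuationSubring K}
  {H : Subalgebra A (X → K)}

/-- A function of the algebra with unit values has its inverse in the algebra. -/
theorem inv_mem_of_isUnit {g : X → A} (hg : (fun x => (g x : K)) ∈ H) (hu : ∀ x, IsUnit (g x)) :
    (fun x => (g x : K)⁻¹) ∈ H := by
  obtain ⟨e, he, hge⟩ := Flat.exists_inverse_mem H hg fun x => ⟨(hu x).unit, rfl⟩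
  rwa [show (fun x => (g x : K)⁻¹) = e from funext fun x =>
    inv_eq_of_mul_eq_one_left (hge x)]

/-- The indicator of the unit locus of a function of the algebra lies in the algebra. -/
theorem indicator_mem {g : X → A} (hg : (fun x => (g x : K)) ∈ H) :
    (open Classical in fun x => if IsUnit (g x) then (0 : K) else 1) ∈ H := by
  classical
  have := Fintype.ofFinite X
  set C := Finset.univ.filter fun x => IsUnit (g x)
  set g₁ : X → A := fun y => ∏ x ∈ Cᶜ, (g y - g x) with hg₁
  have hg₁H : (fun y => (g₁ y : K)) ∈ H := by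
    have e : (fun y => (g₁ y : K)) = ∏ x ∈ Cᶜ, ((fun y => (g y : K)) - algebraMap A _ (g x)) := by
      funext y
      rw [Finset.prod_apply, hg₁]
      push_cast
      exact Finset.prod_congr rfl fun x _ => rfl
    rw [e]
    exact prod_mem fun x _ => sub_mem hg (Subalgebra.algebraMap_mem H _)
  have hon : ∀ y ∈ C, IsUnit (g₁ y) := by
    intro y hy
    refine IsUnit.prod_iff.2 fun x hx => ?_
    have hx' : ¬IsUnit (g x) := by simpa [C] using hx
    rw [sub_eq_add_neg]
    by_contra hn
    have hy' : IsUnit (g y) := by simpa [C] using hy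
    have hm := (IsLocalRing.maximalIdeal A).add_mem
      ((IsLocalRing.mem_maximalIdeal _).2 hn) ((IsLocalRing.mem_maximalIdeal _).2 hx')
    rw [neg_add_cancel_right] at hm
    exact (IsLocalRing.mem_maximalIdeal _).1 hm hy'
  have hoff : ∀ y ∉ C, g₁ y = 0 := fun y hy =>
    Finset.prod_eq_zero (Finset.mem_compl.2 hy) (sub_self _)
  set c : A := ∏ x ∈ C, -g₁ x
  have hc : IsUnit c := IsUnit.prod_iff.2 fun x hx => (hon x hx).neg
  obtain ⟨u, hu⟩ := hc
  have e : (fun x => if IsUnit (g x) then (0 : K) else 1) =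
      (↑u⁻¹ : A) • ∏ x ∈ C, ((fun y => (g₁ y : K)) - algebraMap A _ (g₁ x)) := by
    funext y
    rw [Pi.smul_apply, Finset.prod_apply]
    by_cases hy : IsUnit (g y)
    · rw [if_pos hy, Finset.prod_eq_zero (show y ∈ C by simpa [C] using hy) (sub_self _),
        smul_zero]
    · rw [if_neg hy]
      have hy' : y ∉ C := by simpa [C] using hy
      have e2 : ∀ x ∈ C, ((fun y => (g₁ y : K)) - algebraMap A (X → K) (g₁ x)) y =
          ((-g₁ x : A) : K) := by
        intro x _
        show (g₁ y : K) - (g₁ x : K) = _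
        rw [hoff y hy', NegMemClass.coe_neg, ZeroMemClass.coe_zero, zero_sub]
      rw [Finset.prod_congr rfl e2]
      show (1 : K) = ((↑u⁻¹ : A) : K) * ∏ x ∈ C, ((-g₁ x : A) : K)
      rw [show (∏ x ∈ C, ((-g₁ x : A) : K)) = ((c : A) : K) from
          (map_prod A.subtype (fun x => -g₁ x) C).symm,
        ← hu, ← MulMemClass.coe_mul, Units.inv_mul]
      rfl
  rw [e]
  exact Subalgebra.smul_mem H (prod_mem fun x _ => sub_mem hg₁H (Subalgebra.algebraMap_mem H _)) _

end Functions

section Formula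

open scoped WeierstrassCurve.Projective

variable {K : Type*} [Field K] [DecidableEq K] {A : ValuationSubring K} {V : WeierstrassCurve A}

omit [DecidableEq K] in
/-- The third normalised coordinate is one or else the second is. -/
theorem rep_two_or_one (R : (gen V).toAffine.Point) :
    (IsUnit (rep R 2) → rep R 2 = 1) ∧ (¬IsUnit (rep R 2) → rep R 1 = 1) := by
  rcases R with _ | ⟨x, y, h⟩
  · rw [← Affine.Point.zero_def, rep_zero]
    simp
  by_cases hx : x ∈ A
  · rw [rep_some_mem h hx]
    simp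
  · refine ⟨fun hu => absurd hu ?_, fun _ => by rw [rep_some_not_mem h hx]; rfl⟩
    rw [← IsLocalRing.residue_ne_zero_iff_isUnit, not_not]
    exact congrFun (repk_some_not_mem h hx) 2

omit [DecidableEq K] in
theorem rep_injective : Function.Injective (rep : (gen V).toAffine.Point → Fin 3 → A) :=
  fun P Q h => by
    rw [← toAffine_repK P, ← toAffine_repK Q, repK, repK, h]

variable [DecidableEq (IsLocalRing.ResidueField A)]

omit [DecidableEq K] [DecidableEq (IsLocalRing.ResidueField ↥A)] in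
theorem not_equiv_of_red_ne {P Q : (gen V).toAffine.Point} (h : red P ≠ red Q) :
    ¬repk P ≈ repk Q := fun he => h (Projective.Point.toAffine_of_equiv he)

omit [DecidableEq (IsLocalRing.ResidueField ↥A)] in
/-- Where reductions differ the addition formula gives the representative up to a unit. -/
theorem exists_unit_addXYZ {P Q : (gen V).toAffine.Point} (hP : IsE0 P) (hQ : IsE0 Q)
    (h : red P ≠ red Q) :
    ∃ a : A, IsUnit a ∧ V.toProjective.addXYZ (rep P) (rep Q) = a • rep (P + Q) := by
  have hne := not_equiv_of_red_ne h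
  have hk : IsLocalRing.residue A ∘ V.toProjective.addXYZ (rep P) (rep Q) =
      (spc V).toProjective.addXYZ (repk P) (repk Q) := (Projective.map_addXYZ _ _ _).symm
  have hn := Projective.nonsingular_add hP hQ
  rw [Projective.add_of_not_equiv hne] at hn
  refine exists_isUnit_eq_smul_rep (addXYZ_rep_equiv_repK hne) fun h0 => ?_
  rw [← hk, h0, Projective.nonsingular_iff] at hn
  simp at hn

end Formula

/-- The normalised coordinates of a point. -/
def coordFun {M : Type*} (W : WeierstrassCurve ℤ) (A : ValuationSubring Qbar)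
    (ι : M → ((W.map (Int.castRingHom ℚ))⁄Qbar).Point) (i : Fin 3) : M → Qbar :=
  fun x => (rep (toGen W A (ι x)) i : Qbar)

variable {W : WeierstrassCurve ℤ} {A : ValuationSubring Qbar}

/-! ### The addition formula through an auxiliary point -/

/-- An elliptic curve over `ℚ` has a nonzero `ℓ`-torsion point. -/
private lemma exists_torsion_point_ne_zero (hΔQ : (W.map (Int.castRingHom ℚ)).Δ ≠ 0) {ℓ : ℕ}
    (hℓ : ℓ.Prime) :
    ∃ T : ((W.map (Int.castRingHom ℚ))⁄Qbar).Point, ℓ • T = 0 ∧ T ≠ 0 := by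
  classical
  have hcard := EC.natCard_torsionBy_rat (W.map (Int.castRingHom ℚ)) hΔQ hℓ.ne_zero
  have := EC.finite_torsionBy_rat (W.map (Int.castRingHom ℚ)) hΔQ hℓ.ne_zero
  by_contra hc
  push Not at hc
  have : Subsingleton (Submodule.torsionBy ℤ
      ((W.map (Int.castRingHom ℚ))⁄Qbar).Point (ℓ : ℤ)) :=
    ⟨fun a b => Subtype.ext (((hc _ (by rw [← natCast_zsmul]
                                        exact (Submodule.mem_torsionBy_iff _ _).1 a.2))).trans
      (hc _ (by rw [← natCast_zsmul]; exact (Submodule.mem_torsionBy_iff _ _).1 b.2)).symm)⟩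
  rw [Nat.card_unique] at hcard
  nlinarith [hℓ.two_le]

/-- A point `T` separating the reductions of the `N`-torsion in the addition formula. -/
private lemma exists_auxiliary_point [DecidableEq (IsLocalRing.ResidueField A)] {p : ℕ}
    (hp : p.Prime) (hA : A.LiesOverPrime p)
    (hE0 : ∀ P : (gen (modelAt W A)).toAffine.Point, IsE0 P)
    (hΔQ : (W.map (Int.castRingHom ℚ)).Δ ≠ 0) {N : ℕ} (hN0 : N ≠ 0) :
    ∃ T : (gen (modelAt W A)).toAffine.Point, ∀ P Q : (gen (modelAt W A)).toAffine.Point,
      N • red P = 0 → N • red Q = 0 →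
        red P ≠ red T ∧ red Q ≠ red (-T) ∧ red (P + T) ≠ red (Q + -T) := by
  classical
  obtain ⟨ℓ, hℓ, hℓp⟩ := Nat.exists_infinite_primes (p + 2 * N + 3)
  have := Fact.mk hℓp
  obtain ⟨T₀, hT₀, hT₀0⟩ := exists_torsion_point_ne_zero hΔQ hℓp
  set T := toGen W A T₀
  have hredT : red T ≠ 0 := by
    intro h
    refine hT₀0 ((toGen W A).injective ?_)
    rw [map_zero]
    refine ((red_eq_zero_iff (hE0 T)).1 h).eq_zero_of_nsmul_eq_zero
      (natCast_residue_ne_zero hp hA (n := ℓ) fun hd => ?_) (by rw [← map_nsmul, hT₀, map_zero])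
    have := (Nat.prime_dvd_prime_iff_eq hp hℓp).1 hd
    omega
  have hℓT : ℓ • red T = 0 := by
    rw [← ((hE0 T).nsmul ℓ).2, ← map_nsmul, hT₀, map_zero, red_zero]
  have hmul : ∀ m : ℕ, 0 < m → m < ℓ → m • red T ≠ 0 := by
    intro m hm hml h
    have h1 := addOrderOf_dvd_of_nsmul_eq_zero h
    rcases (Nat.dvd_prime hℓp).1 (addOrderOf_dvd_of_nsmul_eq_zero hℓT) with h2 | h2
    · exact hredT (AddMonoid.addOrderOf_eq_one_iff.1 h2)
    · rw [h2] at h1
      have := Nat.le_of_dvd hm h1
      omega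
  refine ⟨T, fun P Q hP hQ => ⟨fun h => ?_, fun h => ?_, fun h => ?_⟩⟩
  · exact hmul N (Nat.pos_of_ne_zero hN0) (by omega) (h ▸ hP)
  · refine hmul N (Nat.pos_of_ne_zero hN0) (by omega) ?_
    rwa [h, (hE0 T).neg.2, neg_nsmul, neg_eq_zero] at hQ
  · refine hmul (2 * N) (by omega) (by omega) ?_
    rw [(IsE0.add (hE0 _) (hE0 _)).2, (IsE0.add (hE0 _) (hE0 _)).2, (hE0 T).neg.2] at h
    have h1 := congrArg (fun v => N • v) h
    simp only [nsmul_add, neg_nsmul] at h1
    rw [hP, hQ, zero_add, zero_add, eq_neg_iff_add_eq_zero, ← add_nsmul, ← two_mul] at h1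
    exact h1

section AuxFormula

variable {K : Type*} [Field K] [DecidableEq K] {B : ValuationSubring K}
  [DecidableEq (IsLocalRing.ResidueField B)] {V : WeierstrassCurve B}

omit [DecidableEq (IsLocalRing.ResidueField B)] in
/-- Adding through `T` gives the representative of the sum up to a unit. -/
private lemma exists_unit_addXYZ_through {P Q T : (gen V).toAffine.Point}
    (hE0 : ∀ R : (gen V).toAffine.Point, IsE0 R) (h₁ : red P ≠ red T) (h₂ : red Q ≠ red (-T))
    (h₃ : red (P + T) ≠ red (Q + -T)) :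
    ∃ c : B, IsUnit c ∧ V.toProjective.addXYZ (V.toProjective.addXYZ (rep P) (rep T))
      (V.toProjective.addXYZ (rep Q) (rep (-T))) = c • rep (P + Q) := by
  obtain ⟨a₁, ha₁, e₁⟩ := exists_unit_addXYZ (hE0 P) (hE0 T) h₁
  obtain ⟨a₂, ha₂, e₂⟩ := exists_unit_addXYZ (hE0 Q) (hE0 (-T)) h₂
  obtain ⟨a₃, ha₃, e₃⟩ := exists_unit_addXYZ (hE0 (P + T)) (hE0 (Q + -T)) h₃
  refine ⟨(a₁ * a₂) ^ 2 * a₃, ((ha₁.mul ha₂).pow 2).mul ha₃, ?_⟩
  rw [e₁, e₂, Projective.addXYZ_smul, e₃, smul_smul, show P + T + (Q + -T) = P + Q by abel]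

omit [DecidableEq K] [DecidableEq (IsLocalRing.ResidueField B)] in
/-- The formula through constants of functions of an algebra is in the algebra. -/
private lemma addXYZ_through_mem {X : Type*} {H : Subalgebra B (X → K)}
    (V : WeierstrassCurve B) {u u' : X → Fin 3 → B} (t t' : Fin 3 → B)
    (hu : ∀ j, (fun z => (u z j : K)) ∈ H) (hu' : ∀ j, (fun z => (u' z j : K)) ∈ H) (j : Fin 3) :
    (fun z => (V.toProjective.addXYZ (V.toProjective.addXYZ (u z) t)
      (V.toProjective.addXYZ (u' z) t') j : K)) ∈ H := by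
  let U : Fin 3 → H := fun j => ⟨_, hu j⟩
  let U' : Fin 3 → H := fun j => ⟨_, hu' j⟩
  let Z : Fin 3 → H := algebraMap B H ∘ t
  let Z' : Fin 3 → H := algebraMap B H ∘ t'
  let VH := (V.map (algebraMap B H)).toProjective
  have e : (fun z => (V.toProjective.addXYZ (V.toProjective.addXYZ (u z) t)
      (V.toProjective.addXYZ (u' z) t') j : K)) =
      ((VH.addXYZ (VH.addXYZ U Z) (VH.addXYZ U' Z') j : H) : X → K) := by
    funext z
    let ev : H →+* K := (Pi.evalRingHom (fun _ : X => K) z).comp H.val.toRingHom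
    have hev : (V.map (algebraMap B H)).map ev = V.map B.subtype := by
      rw [WeierstrassCurve.map_map]
      rfl
    show (B.subtype ∘ _) j = (ev ∘ VH.addXYZ (VH.addXYZ U Z) (VH.addXYZ U' Z')) j
    refine congrFun ?_ j
    rw [← Projective.map_addXYZ, ← Projective.map_addXYZ, ← Projective.map_addXYZ,
      ← Projective.map_addXYZ, ← Projective.map_addXYZ, ← Projective.map_addXYZ,
      show Projective.map (V.map (algebraMap B H)).toProjective ev =
        Projective.map V.toProjective B.subtype from hev]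
    rfl
  rw [e]
  exact SetLike.coe_mem _

omit [DecidableEq K] [DecidableEq (IsLocalRing.ResidueField B)] in
/-- If `S = c • rep R` with unit `c` is in an algebra of functions, so is `c⁻¹ S`. -/
private lemma rep_mem_of_smul_mem {X : Type*} [Finite X] {H : Subalgebra B (X → K)}
    {S : X → Fin 3 → B} {c : X → B} {R : X → (gen V).toAffine.Point}
    (hS : ∀ z, S z = c z • rep (R z)) (hc : ∀ z, IsUnit (c z))
    (hSH : ∀ j, (fun z => (S z j : K)) ∈ H) (i : Fin 3) :
    (fun z => (rep (R z) i : K)) ∈ H := by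
  classical
  have hZ := indicator_mem (H := H) (g := fun z => S z 2) (hSH 2)
  set e : X → K := fun z => if IsUnit (S z 2) then 0 else 1
  have hcden : (fun z => (c z : K)) ∈ H := by
    have e' : (fun z => (c z : K)) =
        (1 - e) * (fun z => (S z 2 : K)) + e * (fun z => (S z 1 : K)) := by
      funext z
      obtain ⟨h2, h1⟩ := rep_two_or_one (R z)
      simp only [e, Pi.add_apply, Pi.mul_apply, Pi.sub_apply, Pi.one_apply, hS z, Pi.smul_apply,
        smul_eq_mul]
      by_cases h : IsUnit (rep (R z) 2)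
      · rw [if_pos ((hc z).mul h)]
        simp [h2 h]
      · rw [if_neg fun hh => h (IsUnit.mul_iff.1 hh).2]
        simp [h1 h]
    rw [e']
    exact add_mem (mul_mem (sub_mem (one_mem H) hZ) (hSH 2)) (mul_mem hZ (hSH 1))
  have e' : (fun z => (rep (R z) i : K)) = (fun z => (S z i : K)) * fun z => (c z : K)⁻¹ := by
    funext z
    have hne : (c z : K) ≠ 0 := fun h => (hc z).ne_zero (Subtype.ext h)
    rw [Pi.mul_apply, hS z]
    show (rep (R z) i : K) = ((c z : K) * (rep (R z) i : K)) * (c z : K)⁻¹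
    field_simp
  rw [e']
  exact mul_mem (hSH i) (inv_mem_of_isUnit hcden hc)

end AuxFormula

variable {M : Type} [AddCommGroup M] [Finite M] [DistribMulAction GQ M]
  (ι : M →+ ((W.map (Int.castRingHom ℚ))⁄Qbar).Point)

omit [Finite M] in
/-- An element fixing the normalised coordinates fixes the point. -/
private lemma smul_eq_self_of_coord_fixed (hι : Function.Injective ι)
    (heq : ∀ (σ : GQ) x, ι (σ • x) = σ • ι x) {σ : GQ} {x : M}
    (h0 : ∀ i, σ (coordFun W A ι i x) = coordFun W A ι i x) : σ • x = x := by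
  apply hι
  rw [heq]
  apply (toGen W A).injective
  have hc := isConj_toGen W A σ (ι x)
  simp only [coordFun] at h0
  generalize toGen W A (σ • ι x) = R' at hc
  generalize toGen W A (ι x) = R at hc h0
  rcases R with _ | ⟨a, b, hab⟩
  · obtain rfl : R' = 0 := hc
    rfl
  obtain ⟨h', rfl⟩ := hc
  simp only [Affine.Point.some.injEq, RingHom.coe_coe]
  by_cases ha : a ∈ A
  · rw [rep_some_mem hab ha] at h0
    exact ⟨h0 0, h0 1⟩
  · rw [rep_some_not_mem hab ha] at h0
    have hy0 := y_ne_zero_of_x_not_mem hab.1 ha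
    have h2 : σ b = b := inv_injective (by rw [← map_inv₀]; exact h0 2)
    refine ⟨?_, h2⟩
    have h1 : σ a / σ b = a / b := by rw [← map_div₀]; exact h0 0
    rw [h2] at h1
    exact (div_left_inj' hy0).1 h1

omit [Finite M] in
open FermatAgent.Flat in
/-- The coordinate functions are invariant under the decomposition group. -/
private lemma tw_coordFun (heq : ∀ (σ : GQ) x, ι (σ • x) = σ • ι x) {σ : GQ}
    (hσ : σ ∈ A.decompositionSubgroup ℚ) (i : Fin 3) :
    tw σ (coordFun W A ι i) = coordFun W A ι i := funext fun x => by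
  rw [tw_apply]
  show σ (rep (toGen W A (ι (σ⁻¹ • x))) i : Qbar) = _
  rw [← rep_galois_smul W ⟨σ, hσ⟩, ← heq, smul_inv_smul]
  rfl

open FermatAgent.Flat in
/-- **Coordinates on torsion at a place of good reduction**: a Galois submodule of the `N`-torsion
has a coordinate system over some number field. -/
theorem exists_isCoordSystem_torsion {p : ℕ} (hp : p.Prime) (hA : A.LiesOverPrime p)
    (hgood : ¬(p : ℤ) ∣ W.Δ) (hι : Function.Injective ι)
    (heq : ∀ (σ : GQ) x, ι (σ • x) = σ • ι x) {N : ℕ} (hN0 : N ≠ 0)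
    (hN : ∀ x, N • ι x = 0) :
    ∃ (L : IntermediateField ℚ Qbar) (Φ : Set (M → Qbar)),
      FiniteDimensional ℚ L ∧ IsGalois ℚ L ∧ IsCoordSystem L A Φ := by
  classical
  have hΔr : IsLocalRing.residue A (modelAt W A).Δ ≠ 0 :=
    residue_modelAt_Δ hp hA hgood
  have hE0 : ∀ P : (gen (modelAt W A)).toAffine.Point, IsE0 P :=
    isE0_of_residue_Δ_ne_zero hΔr
  have hΔ0 : W.Δ ≠ 0 := fun h => hgood (h ▸ dvd_zero _)
  have hΔQ := EC.intMap_Δ_ne_zero hΔ0
  set Φ : Set (M → Qbar) := Set.range (coordFun W A ι)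
  obtain ⟨L, hL, hLG, hsub⟩ := exists_galois_of_finite
    (Set.finite_range fun z : Fin 3 × M => coordFun W A ι z.1 z.2)
  have hLmem : ∀ σ ∈ L.fixingSubgroup, ∀ i x,
      σ (coordFun W A ι i x) = coordFun W A ι i x := fun σ hσ i x =>
    (IntermediateField.mem_fixingSubgroup_iff L σ).mp hσ _ (hsub ⟨(i, x), rfl⟩)
  have hfixM : ∀ σ ∈ L.fixingSubgroup, ∀ x : M, σ • x = x := fun σ hσ x =>
    smul_eq_self_of_coord_fixed ι hι heq fun i => hLmem σ hσ i x
  refine ⟨L, Φ, hL, hLG, hfixM, ?_, ?_, ?_, ?_, ?_, ?_⟩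
  · rintro σ hσ _ ⟨i, rfl⟩
    funext x
    rw [tw_apply, hfixM σ⁻¹ (inv_mem hσ), hLmem σ hσ]
  · rintro _ ⟨i, rfl⟩ x
    exact (rep (toGen W A (ι x)) i).2
  · intro x y hxy
    by_contra hall
    push Not at hall
    exact hxy (hι ((toGen W A).injective (rep_injective (funext fun i =>
      Subtype.ext (hall _ ⟨i, rfl⟩)))))
  · rintro σ hσ _ ⟨i, rfl⟩
    obtain ⟨g, -, rfl⟩ := Subgroup.mem_map.mp hσ
    exact tw_coordFun ι heq g.2 i
  · rintro σ hσ _ ⟨i, rfl⟩
    rw [tw_coordFun ι heq hσ i]
    exact Algebra.subset_adjoin ⟨i, rfl⟩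
  -- addition, through an auxiliary point `T`
  rintro _ ⟨i, rfl⟩
  obtain ⟨T, hT⟩ := exists_auxiliary_point hp hA hE0 hΔQ hN0
  have hNM : ∀ x, N • red (toGen W A (ι x)) = 0 := fun x => by
    rw [← ((hE0 _).nsmul N).2, ← map_nsmul, hN, map_zero, red_zero]
  choose c hc hS using fun z : M × M => exists_unit_addXYZ_through hE0
    (hT _ _ (hNM z.1) (hNM z.2)).1 (hT _ _ (hNM z.1) (hNM z.2)).2.1
    (hT _ _ (hNM z.1) (hNM z.2)).2.2
  set H := Algebra.adjoin A
    (pullAlg A Qbar Prod.fst '' Φ ∪ pullAlg A Qbar Prod.snd '' Φ : Set (M × M → Qbar))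
  have hSH : ∀ j, (fun z : M × M => ((modelAt W A).toProjective.addXYZ
      ((modelAt W A).toProjective.addXYZ (rep (toGen W A (ι z.1))) (rep T))
      ((modelAt W A).toProjective.addXYZ (rep (toGen W A (ι z.2))) (rep (-T))) j : Qbar)) ∈ H :=
    addXYZ_through_mem (modelAt W A) (rep T) (rep (-T))
      (fun j => Algebra.subset_adjoin (Or.inl ⟨_, ⟨j, rfl⟩, rfl⟩))
      (fun j => Algebra.subset_adjoin (Or.inr ⟨_, ⟨j, rfl⟩, rfl⟩))
  have h := rep_mem_of_smul_mem hS hc hSH i
  rw [show (fun z : M × M => (rep (toGen W A (ι z.1) + toGen W A (ι z.2)) i : Qbar)) =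
    fun z => coordFun W A ι i (z.1 + z.2) by simp only [coordFun, map_add]] at h
  exact h

end FermatAgent.TateRep
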