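import Fermat.Agent.TateRep.Basic
import Fermat.Agent.TateRep.FlatCoord
import Fermat.Agent.GaloisBasic.Frobenius
import Fermat.Agent.RT.Cond.Flat
import Fermat.Prelude.Def_GaloisRep_Flat

/-!
# The Tate module is flat at a prime of good reduction
-/

set_option autoImplicit false

noncomputable section

open WeierstrassCurve
open scoped WeierstrassCurve.Affine

namespace FermatAgent.TateRep

local notation "GQ" => AlgebraicClosure ℚ ≃ₐ[ℚ] AlgebraicClosure ℚ

variable {W : WeierstrassCurve ℤ} {p : ℕ} [hp : Fact p.Prime]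

/-- **Flatness at a prime of good reduction**: the representation on the Tate module is flat at `p`
if `p` does not divide the discriminant. -/
theorem tateRep_isFlatAt (hΔ : W.Δ ≠ 0) (hgood : ¬(p : ℤ) ∣ W.Δ) :
    (tateRep (p := p) hΔ).IsFlatAt p := by
  classical
  refine ⟨Finite.of_equiv _ (PadicInt.residueField (p := p)).symm.toEquiv, fun I hI => ?_⟩
  have hI0 : I ≠ ⊥ := by
    rintro rfl
    exact not_finite_iff_infinite.2 (inferInstance : Infinite ℤ_[p])
      (Finite.of_equiv _ (RingEquiv.quotientBot ℤ_[p]).toEquiv)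
  obtain ⟨k, rfl⟩ := PadicInt.ideal_eq_span_pow_p hI0
  set ρ := tateRep (p := p) hΔ
  set N : Submodule ℤ_[p] ρ.V :=
    Ideal.span {(p : ℤ_[p]) ^ k} • (⊤ : Submodule ℤ_[p] ρ.V)
  have hker : ∀ x : Tate W p, x ∈ N → Tate.at' k x = 0 := by
    intro x hx
    refine Submodule.smul_induction_on (p := fun v : ρ.V => Tate.at' k (v : Tate W p) = 0) hx
      (fun r hr v _ => ?_) fun v w hv hw => ?_
    · obtain ⟨c, rfl⟩ := Ideal.mem_span_singleton'.1 hr
      have e : Tate.at' k ((c * (p : ℤ_[p]) ^ k) • (v : Tate W p)) = 0 := by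
        rw [mul_comm, ← smul_smul, ← Nat.cast_pow]
        exact (congrArg (Tate.at' k)
          (Nat.cast_smul_eq_nsmul ℤ_[p] (p ^ k) (c • (v : Tate W p)))).trans
            ((map_nsmul _ _ _).trans (Tate.pow_nsmul_self _ _))
      exact e
    · exact (map_add (Tate.at' k) (v : Tate W p) (w : Tate W p)).trans
        ((congrArg₂ (· + ·) hv hw).trans (add_zero _))
  let ι : (ρ.V ⧸ N) →+ Pts W :=
    QuotientAddGroup.lift N.toAddSubgroup (Tate.at' k : Tate W p →+ Pts W) hker
  have hι : Function.Injective ι := (injective_iff_map_eq_zero ι).2 fun z hz => by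
    obtain ⟨x, rfl⟩ := Submodule.mkQ_surjective _ z
    refine (Submodule.Quotient.mk_eq_zero N).2 ?_
    have h : Tate.at' k (x : Tate W p) = 0 := hz
    have h1 : ((p : ℤ_[p]) ^ k) • Tate.shift (x : Tate W p) k h = (x : Tate W p) := by
      rw [← Nat.cast_pow]
      exact (Nat.cast_smul_eq_nsmul ℤ_[p] (p ^ k) _).trans (Tate.pow_nsmul_shift _ _ h)
    rw [← h1]
    exact Submodule.smul_mem_smul (Ideal.mem_span_singleton_self _) Submodule.mem_top
  let ρI := Flat.levelEnd ρ (Ideal.span {(p : ℤ_[p]) ^ k})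
  have hsmul : ∀ z, p ^ k • ι z = 0 := fun z => by
    obtain ⟨x, rfl⟩ := Submodule.mkQ_surjective _ z
    exact Tate.pow_nsmul_self _ _
  have : Finite (Flat.EndMod ρI) :=
    haveI := Tate.finite_torsion hΔ (pow_ne_zero k hp.out.ne_zero)
    Finite.of_injective (fun z => (⟨ι z, hsmul z⟩ : {P : Pts W // p ^ k • P = 0}))
      fun a b h => hι (congrArg Subtype.val h :)
  obtain ⟨A, hA⟩ := GaloisBasic.exists_liesOverPrime hp.out
  obtain ⟨L, Φ, hL, hLG, hΦ⟩ := exists_isCoordSystem_torsion (M := Flat.EndMod ρI) ι hp.out hA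
    hgood hι (fun σ z => by
      obtain ⟨x, rfl⟩ := Submodule.mkQ_surjective N z
      exact Tate.at'_galois_smul σ x k) (pow_ne_zero k hp.out.ne_zero) hsmul
  exact Flat.exists_model hA hΦ

end FermatAgent.TateRep
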