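import Fermat.Agent.TateRep.MultPrime
import Fermat.Agent.ECLocal.AtPrime

/-!
# Torsion of residue characteristic at a multiplicative prime

At a multiplicative place over `p`: `p`-power torsion with nonsingular reduction lies in the
kernel of reduction, not all of `E[p]` does if `p` is odd, and the decomposition group acts on
the component group by signs.
-/

set_option autoImplicit false

noncomputable section

open WeierstrassCurve Polynomial
open scoped WeierstrassCurve.Affine

namespace FermatAgent.TateRep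

open FermatAgent.ECLocal

local notation "Qbar" => AlgebraicClosure ℚ
local notation "GQ" => AlgebraicClosure ℚ ≃ₐ[ℚ] AlgebraicClosure ℚ

/-- A normalised elliptic sequence with vanishing parameters vanishes from the third term on. -/
theorem preNormEDS'_zero {R : Type*} [CommRing R] :
    ∀ n : ℕ, 3 ≤ n → preNormEDS' (0 : R) 0 0 n = 0 := by
  intro n
  induction n using Nat.strong_induction_on with
  | _ n ih =>
    intro hn
    rcases Nat.even_or_odd' n with ⟨k, rfl | rfl⟩
    · rcases eq_or_lt_of_le (show 2 ≤ k by omega) with rfl | hk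
      · exact preNormEDS'_four _ _ _
      · obtain ⟨m, rfl⟩ : ∃ m, k = m + 3 := ⟨k - 3, by omega⟩
        rw [preNormEDS'_even]
        have h3 := ih (m + 3) (by omega) (by omega)
        simp [h3]
    · rcases eq_or_lt_of_le (show 1 ≤ k by omega) with rfl | hk
      · exact preNormEDS'_three _ _ _
      · obtain ⟨m, rfl⟩ : ∃ m, k = m + 2 := ⟨k - 2, by omega⟩
        rw [preNormEDS'_odd]
        have h4 := ih (m + 4) (by omega) (by omega)
        have h3 := ih (m + 3) (by omega) (by omega)
        simp [h4, h3]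

/-- The division polynomials vanish at a node. -/
theorem preΨ'_eval_node {F : Type*} [Field F] {V : WeierstrassCurve F}
    (S : NodeAt V) {n : ℕ} (hn : 3 ≤ n) : (V.preΨ' n).eval S.r = 0 := by
  set T := (⟨1, S.r, 0, S.t⟩ : VariableChange F) • V with hT
  set N := S.nodal
  have z4 : T.b₄ = 0 := by rw [WeierstrassCurve.b₄, N.a₃_eq, N.a₄_eq]; ring
  have z6 : T.b₆ = 0 := by rw [WeierstrassCurve.b₆, N.a₃_eq, N.a₆_eq]; ring
  have z8 : T.b₈ = 0 := by rw [WeierstrassCurve.b₈, N.a₃_eq, N.a₄_eq, N.a₆_eq]; ring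
  rw [hT, variableChange_b₄] at z4
  rw [hT, variableChange_b₆] at z6
  rw [hT, variableChange_b₈] at z8
  simp only [inv_one, Units.val_one, one_pow, one_mul] at z4 z6 z8
  have e2 : V.Ψ₂Sq.eval S.r = 0 := by
    simp only [WeierstrassCurve.Ψ₂Sq, eval_add, eval_mul, eval_pow, eval_C, eval_X]
    linear_combination z6
  have e3 : V.Ψ₃.eval S.r = 0 := by
    simp only [WeierstrassCurve.Ψ₃, eval_add, eval_mul, eval_pow, eval_C, eval_X, eval_ofNat]
    linear_combination z8
  have e4 : V.preΨ₄.eval S.r = 0 := by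
    simp only [WeierstrassCurve.preΨ₄, eval_add, eval_mul, eval_pow, eval_C, eval_X,
      eval_ofNat]
    simp only [WeierstrassCurve.b₂, WeierstrassCurve.b₄, WeierstrassCurve.b₆,
      WeierstrassCurve.b₈] at z4 z6 z8 ⊢
    linear_combination (V.a₁ ^ 2 * V.a₆ + 4 * V.a₂ * V.a₆ - V.a₁ * V.a₃ * V.a₄ + V.a₂ * V.a₃ ^ 2
      - V.a₄ ^ 2 + 3 * S.r * (V.a₃ ^ 2 + 4 * V.a₆)
      + 3 * S.r ^ 2 * (2 * V.a₄ + V.a₁ * V.a₃) + S.r ^ 3 * (V.a₁ ^ 2 + 4 * V.a₂)
      + 3 * S.r ^ 4) * z4 - (V.a₃ ^ 2 + 4 * V.a₆ + 2 * S.r * (2 * V.a₄ + V.a₁ * V.a₃)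
      + S.r ^ 2 * (V.a₁ ^ 2 + 4 * V.a₂) + 4 * S.r ^ 3) * z6
  have h := map_preNormEDS' (evalRingHom S.r) (b := V.Ψ₂Sq ^ 2) (c := V.Ψ₃) (d := V.preΨ₄) n
  simp only [coe_evalRingHom, eval_pow, e2, e3, e4, zero_pow two_ne_zero] at h
  rw [WeierstrassCurve.preΨ', h]
  exact preNormEDS'_zero n hn

variable {W : WeierstrassCurve ℤ} {p : ℕ} [hp : Fact p.Prime] {A : ValuationSubring Qbar}
  (hA : A.LiesOverPrime p) (hΔ0 : W.Δ ≠ 0) (hΔ : (p : ℤ) ∣ W.Δ) (hc4 : ¬(p : ℤ) ∣ W.c₄)

include hA hΔ0 hΔ hc4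

/-- `p`-power torsion with nonsingular reduction reduces to zero. -/
theorem isE1_of_isE0_pow {P : ((W.map (Int.castRingHom ℚ))⁄Qbar).Point}
    (h0 : IsE0 (toGen W A P)) {k : ℕ} (hk : p ^ k • P = 0) : IsE1 (toGen W A P) := by
  classical
  obtain ⟨S⟩ := nonempty_nodeAt hp.out hA hΔ0 hΔ hc4
  have : CharP (IsLocalRing.ResidueField A) p := residueChar A hA
  refine (red_eq_zero_iff h0).1 (S.chi_injective ?_)
  rw [S.chi_zero]
  have h1 : ((p ^ k : ℕ) : ℤ) • red (toGen W A P) = 0 := by
    rw [natCast_zsmul, ← (h0.nsmul (p ^ k)).2, ← map_nsmul, hk, map_zero, red_zero]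
  have h2 := congrArg S.chi h1
  rw [S.chi_zsmul, S.chi_zero, zpow_natCast] at h2
  refine iterateFrobenius_inj (IsLocalRing.ResidueField A) p k ?_
  rw [iterateFrobenius_def, iterateFrobenius_def, one_pow, h2]

/-- Not all of `E[p]` lies in the kernel of reduction. -/
theorem exists_not_isE1 (hodd : Odd p) :
    ∃ P : ((W.map (Int.castRingHom ℚ))⁄Qbar).Point, p • P = 0 ∧ ¬IsE1 (toGen W A P) := by
  classical
  by_contra hcon
  simp only [not_exists, not_and, not_not] at hcon
  obtain ⟨r, t, ⟨M⟩, -⟩ := exists_nodeModel_at W A hp.out hA hΔ0 hΔ hc4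
  obtain ⟨S⟩ := nonempty_nodeAt hp.out hA hΔ0 hΔ hc4
  have : CharP (IsLocalRing.ResidueField A) p := residueChar A hA
  have hp3 : 3 ≤ p := by
    have := hp.out.two_le
    obtain ⟨j, hj⟩ := hodd
    omega
  have h2 : (2 : IsLocalRing.ResidueField A) ≠ 0 := by
    have h := natCast_residue_ne_zero hp.out hA (n := 2) fun h => by
      have := Nat.le_of_dvd (by norm_num) h
      omega
    exact_mod_cast h
  obtain ⟨x₁, g2, g3⟩ := exists_simple_root_node M h2
  have hev : ∀ x, ((spc (modelAt W A)).preΨ' p).eval x =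
      IsLocalRing.residue A (((modelAt W A).preΨ' p).coeff 0) := fun x => by
    rw [residue_map_preΨ'_eq_C hodd hΔ0 hcon, eval_C]
  exact preΨ'_eval_ne_zero (spc (modelAt W A)) g2 g3 hodd
    (((hev x₁).trans (hev S.r).symm).trans (preΨ'_eval_node S hp3))

omit hA hΔ0 hΔ hc4 in
/-- An automorphism of the decomposition group fixes an exact node. -/
theorem decomposition_translation_eq {r t : A}
    (M : NodeModel (translation r t • modelAt W A)) {σ : GQ}
    (hσ : σ ∈ A.decompositionSubgroup ℚ) : σ (r : Qbar) = r ∧ σ (t : Qbar) = t := by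
  classical
  have hres : ∀ (S : NodeAt (spc (modelAt W A))), S.r = IsLocalRing.residue A r →
      resEquiv ⟨σ, hσ⟩ (IsLocalRing.residue A r) = IsLocalRing.residue A r := fun S hS => by
    rw [← hS]; exact (S.map_node _ (map_spc W ⟨σ, hσ⟩)).1
  have hR := hres (nodeAtOfModel M) rfl
  rw [resEquiv_residue] at hR
  exact NodeModel.map_translation_eq (W := modelAt W A) (σ := (σ : Qbar →+* Qbar)) hR
    (map_coeff_eq _ W.a₁) (map_coeff_eq _ W.a₂) (map_coeff_eq _ W.a₃) (map_coeff_eq _ W.a₄) M

omit hA hΔ0 hΔ hc4 in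
/-- The decomposition group permutes the slopes of an exact node. -/
theorem slope_cases {r t : A} (M : NodeModel (translation r t • modelAt W A)) {σ : GQ}
    (hσ : σ ∈ A.decompositionSubgroup ℚ) :
    (σ (M.α : Qbar) = M.α ∧ σ (M.β : Qbar) = M.β) ∨
      (σ (M.α : Qbar) = M.β ∧ σ (M.β : Qbar) = M.α) := by
  obtain ⟨hr, ht⟩ := decomposition_translation_eq M hσ
  refine M.map_slopes_cases (σ := (σ : Qbar →+* Qbar)) ?_ ?_
  · simp [translation, variableChange_def, modelAt]
  · simp [translation, variableChange_def, modelAt, hr,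
      show ((3 : A) : Qbar) = 3 from map_ofNat A.subtype 3, map_ofNat]

omit hA hc4 hΔ0 hΔ in
/-- At Frobenius the action on the slopes is the sign of the reduction. -/
theorem apOfModel_sub_one_eq {r t : A} (M : NodeModel (translation r t • modelAt W A))
    (hA : A.LiesOverPrime p) {σ : GQ} (hσ : A.IsFrobeniusAt σ p) :
    W.apOfModel p - 1 = if σ (M.α : Qbar) = M.α then 1 else -1 := by
  classical
  have hd := hσ.mem_decompositionSubgroup
  let S : NodeAt (spc (modelAt W A)) := nodeAtOfModel M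
  let g : A.decompositionSubgroup ℚ := ⟨σ, hd⟩
  have : IsAlgClosed (IsLocalRing.ResidueField A) := isAlgClosed_residueField A
  have : CharP (IsLocalRing.ResidueField A) p := residueChar A hA
  have hS := S.natCard_fixed (resEquiv g) (map_spc W g) (q := p)
    (fun x => hσ.smul_residue_eq x) hp.out.one_lt
  rw [natCard_fixed_residue hp.out hA hσ] at hS
  have hsign : W.apOfModel p - 1 = S.sign (resEquiv g) := by
    rw [WeierstrassCurve.apOfModel, WeierstrassCurve.traceOfFrobenius, Nat.card_zmod, hS]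
    ring
  rw [hsign, NodeAt.sign]
  have hres : resEquiv g (IsLocalRing.residue A M.α) = IsLocalRing.residue A (g • M.α) :=
    resEquiv_residue g M.α
  have hcase : g • M.α = M.α ∨ g • M.α = M.β := by
    rcases slope_cases M hd with ⟨h, -⟩ | ⟨h, -⟩
    · exact Or.inl (Subtype.ext h)
    · exact Or.inr (Subtype.ext h)
  have hiff : resEquiv g (IsLocalRing.residue A M.α) = IsLocalRing.residue A M.α ↔
      σ (M.α : Qbar) = M.α := by
    rw [hres]
    constructor
    · intro h
      rcases hcase with h' | h'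
      · exact congrArg Subtype.val h'
      · rw [h'] at h; exact absurd h.symm M.residue_ne
    · intro h
      rw [show g • M.α = M.α from Subtype.ext h]
  exact if_congr hiff rfl rfl

/-- **The decomposition group acts on the component group by signs**, Frobenius by `a_p - 1`. -/
theorem exists_sign_sub_isE0_spec {σ : GQ} (hσ : σ ∈ A.decompositionSubgroup ℚ) :
    ∃ z : ℤ, z ^ 2 = 1 ∧ (A.IsFrobeniusAt σ p → z = W.apOfModel p - 1) ∧
      ∀ P : ((W.map (Int.castRingHom ℚ))⁄Qbar).Point, IsE0 (toGen W A (σ • P - z • P)) := by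
  classical
  obtain ⟨r, t, ⟨M⟩, -⟩ := exists_nodeModel_at W A hp.out hA hΔ0 hΔ hc4
  obtain ⟨hr, ht⟩ := decomposition_translation_eq M hσ
  let T := AddEquiv.ofBijective _ (translatePoint_bijective (modelAt W A) r t)
  have hv := valuation_map_of_mem_decomposition A σ hσ
  have hslope := slope_cases M hσ
  suffices h : ∃ z : ℤ, z ^ 2 = 1 ∧ (A.IsFrobeniusAt σ p → z = W.apOfModel p - 1) ∧
      ∀ P : ((W.map (Int.castRingHom ℚ))⁄Qbar).Point,
      M.componentHom (T.symm (toGen W A (σ • P))) = z • M.componentHom (T.symm (toGen W A P)) by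
    obtain ⟨z, hz, hzF, h⟩ := h
    refine ⟨z, hz, hzF, fun P => ?_⟩
    rw [← T.apply_symm_apply (toGen W A (σ • P - z • P))]
    refine (isE0_translatePoint _ r t _).2 (M.componentHom_eq_zero_iff.1 ?_)
    rw [map_sub, map_sub, map_sub, h P, map_zsmul, map_zsmul, map_zsmul, sub_self]
  -- coordinates
  have hcoord : ∀ P : ((W.map (Int.castRingHom ℚ))⁄Qbar).Point,
      IsConj (σ : Qbar →+* Qbar) (T.symm (toGen W A P)) (T.symm (toGen W A (σ • P))) := fun P =>
    IsConj.of_translatePoint hr ht (by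
      simp only [T, AddEquiv.ofBijective_apply_symm_apply]; exact isConj_toGen W A σ P)
  rcases hslope with ⟨hα, hβ⟩ | ⟨hα, hβ⟩
  · refine ⟨1, one_pow 2, fun hF => ?_, fun P => ?_⟩
    · rw [apOfModel_sub_one_eq M hA hF, if_pos hα]
    rw [one_zsmul]
    exact M.componentHom_eq_of_isConj hv hα hβ (hcoord P)
  · refine ⟨-1, by norm_num, fun hF => ?_, fun P => ?_⟩
    · rw [apOfModel_sub_one_eq M hA hF, if_neg fun h => M.residue_ne (congrArg _
        (Subtype.ext (h.symm.trans hα)))]
    rw [neg_zsmul, one_zsmul, eq_neg_iff_add_eq_zero]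
    have hc := hcoord P
    generalize T.symm (toGen W A (σ • P)) = R' at hc
    generalize T.symm (toGen W A P) = R at hc
    show NodeModel.cl _ (M.value R') + NodeModel.cl _ (M.value R) = 0
    rcases R with _ | ⟨x, y, hxy⟩
    · obtain rfl : R' = 0 := hc
      rw [← Affine.Point.zero_def, M.value_zero, NodeModel.cl_one, add_zero]
    obtain ⟨h', rfl⟩ := hc
    by_cases hx : A.valuation x < 1
    · have hx' : A.valuation (σ x) < 1 := by rw [hv]; exact hx
      rw [← NodeModel.cl_mul (M.value_ne_zero _) (M.value_ne_zero _)]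
      have e1 : σ y - (M.α : Qbar) * σ x = σ (y - (M.β : Qbar) * x) := by
        rw [map_sub, map_mul, hβ]
      have e2 : σ y - (M.β : Qbar) * σ x = σ (y - (M.α : Qbar) * x) := by
        rw [map_sub, map_mul, hα]
      have key : M.value (.some (σ x) (σ y) h') * M.value (.some x y hxy) =
          A.valuation ((translation r t • modelAt W A).a₆ : Qbar) := by
        rw [M.value_some_off _ hx']
        rw [M.value_some_off _ hx, e1, e2]
        simp only [nodeValue, hv]
        exact M.sum_mul_val (M.equation_iff.mp hxy.1) (by ring) (M.val_UV_lt_one hxy.1 hx).1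
      exact (congrArg (NodeModel.cl _) key).trans (NodeModel.cl_c M)
    · have hx' : ¬A.valuation ((σ : Qbar →+* Qbar) x) < 1 := by
        rw [RingHom.coe_coe, hv]; exact hx
      simp only [NodeModel.value, hx, hx', if_false, NodeModel.cl_one, add_zero]

/-- For `σ` in the decomposition group, `σ P ∓ P` has nonsingular reduction for all `P`. -/
theorem exists_sign_sub_isE0 {σ : GQ} (hσ : σ ∈ A.decompositionSubgroup ℚ) :
    ∃ z : ℤ, z ^ 2 = 1 ∧
      ∀ P : ((W.map (Int.castRingHom ℚ))⁄Qbar).Point, IsE0 (toGen W A (σ • P - z • P)) :=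
  let ⟨z, hz, _, h⟩ := exists_sign_sub_isE0_spec hA hΔ0 hΔ hc4 hσ
  ⟨z, hz, h⟩

end FermatAgent.TateRep
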