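import Fermat.Agent.TateRep.Det
import Fermat.Agent.TateRep.NodePTorsion
import Fermat.Agent.RT.Tame

/-!
# The Tate module at a multiplicative lifting prime: the kernel of reduction and its characters

At a place over an odd `p` of multiplicative reduction, the elements of `T_p W` reducing to zero
at all levels form a direct summand of rank one, the decomposition group acts on the quotient by a
sign `z` and on the line by a character `x` with `x ≡ a z` modulo `p^n` when `σ` acts by `a` on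
the `p^n`-th roots of unity.
-/

set_option autoImplicit false

noncomputable section

open WeierstrassCurve
open scoped WeierstrassCurve.Affine

namespace FermatAgent.TateRep

open FermatAgent.ECLocal

local notation "Qbar" => AlgebraicClosure ℚ
local notation "GQ" => AlgebraicClosure ℚ ≃ₐ[ℚ] AlgebraicClosure ℚ

variable (W : WeierstrassCurve ℤ) (p : ℕ) [hp : Fact p.Prime] (A : ValuationSubring Qbar)

/-- The vectors reducing to zero at all levels. -/
def kernelLine : Submodule ℤ_[p] (Tate W p) where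
  carrier := {x | ∀ k, IsE1 (toGen W A (Tate.at' k x))}
  add_mem' := fun {x y} hx hy k => by
    rw [map_add, map_add]; exact IsE1.add (hx k) (hy k)
  zero_mem' := fun k => by rw [map_zero, map_zero]; exact isE1_zero
  smul_mem' := fun c x hx k => by
    rw [Tate.at'_smul_val, map_nsmul]
    generalize (PadicInt.toZModPow k c).val = n
    induction n with
    | zero => rw [zero_nsmul]; exact isE1_zero
    | succ m ih => rw [succ_nsmul]; exact IsE1.add ih (hx k)

variable {W p A}

/-- The line is saturated. -/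
theorem mem_kernelLine_of_nsmul {x : Tate W p} (h : p • x ∈ kernelLine W p A) :
    x ∈ kernelLine W p A := fun k => by
  have h1 := h (k + 1)
  rwa [map_nsmul, Tate.nsmul_at'_succ] at h1

/-- The line is saturated for all nonzero scalars. -/
theorem mem_kernelLine_of_smul {c : ℤ_[p]} (hc : c ≠ 0) {x : Tate W p}
    (h : c • x ∈ kernelLine W p A) : x ∈ kernelLine W p A := by
  have h1 : ((p : ℤ_[p]) ^ c.valuation) • x ∈ kernelLine W p A := by
    have h2 := (kernelLine W p A).smul_mem (↑(PadicInt.unitCoeff hc)⁻¹ : ℤ_[p]) h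
    rw [smul_smul] at h2
    have e : ((↑(PadicInt.unitCoeff hc)⁻¹ : ℤ_[p]) * c) = (p : ℤ_[p]) ^ c.valuation :=
      (congrArg ((↑(PadicInt.unitCoeff hc)⁻¹ : ℤ_[p]) * ·) (PadicInt.unitCoeff_spec hc)).trans
        (Units.inv_mul_cancel_left _ _)
    rwa [e] at h2
  generalize c.valuation = n at h1
  induction n with
  | zero => rwa [pow_zero, one_smul] at h1
  | succ m ih =>
    refine ih (mem_kernelLine_of_nsmul ?_)
    rw [← Nat.cast_smul_eq_nsmul ℤ_[p], smul_smul, ← pow_succ']
    exact h1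

variable (hA : A.LiesOverPrime p) (hΔ0 : W.Δ ≠ 0) (hΔ : (p : ℤ) ∣ W.Δ) (hc4 : ¬(p : ℤ) ∣ W.c₄)

include hA hΔ0 hΔ hc4

/-- `(σ - 1) T_p W` lies in the line for `σ` in inertia. -/
theorem inertia_sub_mem {σ : GQ} (hσ : σ ∈ A.inertiaSubgroupIn ℚ) (x : Tate W p) :
    σ • x - x ∈ kernelLine W p A := fun k => by
  refine isE1_of_isE0_pow hA hΔ0 hΔ hc4 ?_ (Tate.pow_nsmul_self _ k)
  have h1 := (inZeroComponentAt_iff W A _).1
    (inertia_sub_inZeroComponentAt hp.out hA hΔ0 hΔ hc4 hσ (Tate.at' k x))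
  rw [map_sub, Tate.at'_galois_smul, ← neg_sub (Tate.at' k x), map_neg]
  exact h1.neg.1

/-- The decomposition group acts on the quotient by a sign. -/
theorem exists_sign {σ : GQ} (hσ : σ ∈ A.decompositionSubgroup ℚ) :
    ∃ z : ℤ_[p], z * z = 1 ∧ ∀ x : Tate W p, σ • x - z • x ∈ kernelLine W p A := by
  obtain ⟨z, hz, h⟩ := exists_sign_sub_isE0 hA hΔ0 hΔ hc4 hσ
  refine ⟨z, by rw [← Int.cast_mul, ← pow_two, hz, Int.cast_one], fun x k => ?_⟩
  refine isE1_of_isE0_pow hA hΔ0 hΔ hc4 ?_ (Tate.pow_nsmul_self _ k)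
  have e : ((z : ℤ_[p]) • x) = z • x := Int.cast_smul_eq_zsmul ℤ_[p] z x
  rw [e, map_sub, Tate.at'_galois_smul, map_zsmul]
  exact h _

/-- The line is stable under the decomposition group. -/
theorem galois_mem {σ : GQ} (hσ : σ ∈ A.decompositionSubgroup ℚ) {x : Tate W p}
    (hx : x ∈ kernelLine W p A) : σ • x ∈ kernelLine W p A := by
  obtain ⟨z, -, h⟩ := exists_sign hA hΔ0 hΔ hc4 hσ
  have h2 := (kernelLine W p A).add_mem (h x) ((kernelLine W p A).smul_mem z hx)
  rwa [sub_add_cancel] at h2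

/-- The line is not everything. -/
theorem kernelLine_ne_top (hodd : Odd p) : kernelLine W p A ≠ ⊤ := by
  intro htop
  obtain ⟨P, hP, hne⟩ := exists_not_isE1 hA hΔ0 hΔ hc4 hodd
  obtain ⟨x, rfl⟩ := Tate.exists_at'_one hΔ0 hP
  have hx : x ∈ kernelLine W p A := htop ▸ Submodule.mem_top
  exact hne (hx 1)

/-- The line is not zero. -/
theorem kernelLine_ne_bot (hodd : Odd p) : kernelLine W p A ≠ ⊥ := by
  intro hbot
  have hp3 : 3 ≤ p := by
    have := hp.out.two_le
    obtain ⟨j, hj⟩ := hodd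
    omega
  have : Fact (2 < p) := ⟨hp3⟩
  obtain ⟨τ, hτ, hτp⟩ := RT.exists_inertia_cyclotomic hp.out hA (-1 : (ZMod p)ˣ)
  have h1 : (tateRep (p := p) hΔ0).ρ τ = 1 := by
    refine LinearMap.ext fun x => ?_
    show Tate.galEnd τ x = x
    rw [Tate.galEnd_apply]
    have h := inertia_sub_mem hA hΔ0 hΔ hc4 hτ x
    rw [hbot, Submodule.mem_bot, sub_eq_zero] at h
    exact h
  have h2 := (tateRep_detIsCyclotomic (p := p) hΔ0).2 1 τ (p - 1) fun μ hμ => by
    rw [pow_one] at hμ
    have := hτp μ hμ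
    rwa [Units.val_neg, Units.val_one, ZMod.neg_val, if_neg one_ne_zero, ZMod.val_one] at this
  rw [h1, map_one, Nat.cast_pow, pow_one, Ideal.mem_span_singleton] at h2
  have h3 : (p : ℤ_[p]) ∣ 2 := by
    have hp1 : (p : ℤ_[p]) ∣ ((p - 1 : ℕ) : ℤ_[p]) + 1 := by
      refine ⟨1, ?_⟩
      rw [mul_one, ← Nat.cast_add_one, Nat.sub_add_cancel hp.out.one_le]
    have := dvd_add h2 hp1
    rwa [← add_assoc, sub_add_cancel, one_add_one_eq_two] at this
  have h4 : PadicInt.toZMod (2 : ℤ_[p]) = 0 := by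
    obtain ⟨c, hc⟩ := h3
    rw [hc, map_mul, map_natCast, ZMod.natCast_self, zero_mul]
  rw [map_ofNat] at h4
  have h5 := (ZMod.natCast_eq_zero_iff 2 p).1 (by exact_mod_cast h4)
  exact absurd (Nat.le_of_dvd (by norm_num) h5) (by omega)

/-- A basis of `T_p W` whose first vector spans the line. -/
theorem exists_basis_kernelLine (hodd : Odd p) :
    ∃ b : Module.Basis (Fin 2) ℤ_[p] (Tate W p), kernelLine W p A = ℤ_[p] ∙ b 0 := by
  classical
  obtain ⟨b⟩ := Tate.exists_basis (p := p) hΔ0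
  obtain ⟨x, hx, hx0⟩ :=
    (Submodule.ne_bot_iff _).1 (kernelLine_ne_bot hA hΔ0 hΔ hc4 hodd)
  -- divide `x` maximally
  have hex : ∃ k, Tate.at' k x ≠ 0 := by
    by_contra h
    simp only [not_exists, not_not] at h
    exact hx0 (Tate.ext fun k => by rw [h k, map_zero])
  have hk0 : Nat.find hex ≠ 0 := fun h => by
    have := Nat.find_spec hex
    rw [h, Tate.at'_zero] at this
    exact this rfl
  obtain ⟨j, hj⟩ := Nat.exists_eq_succ_of_ne_zero hk0
  have hjx : Tate.at' j x = 0 := not_not.1 (Nat.find_min hex (by omega))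
  set y := Tate.shift x j hjx with hy
  have hxy : ((p : ℤ_[p]) ^ j) • y = x := by
    rw [← Nat.cast_pow]
    exact (Nat.cast_smul_eq_nsmul ℤ_[p] (p ^ j) y).trans (Tate.pow_nsmul_shift x j hjx)
  have hyL : y ∈ kernelLine W p A :=
    mem_kernelLine_of_smul (pow_ne_zero j (Nat.cast_ne_zero.2 hp.out.ne_zero)) (hxy ▸ hx)
  have hy1 : Tate.at' 1 y ≠ 0 := by
    show Tate.at' (1 + j) x ≠ 0
    rw [add_comm, show j + 1 = Nat.find hex from hj.symm]
    exact Nat.find_spec hex
  obtain ⟨i, hi⟩ : ∃ i, IsUnit (b.repr y i) := by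
    by_contra h
    simp only [not_exists] at h
    refine hy1 ?_
    have hz : ∀ i, (PadicInt.toZModPow 1 (b.repr y i)).val = 0 := fun i => by
      have hm : b.repr y i ∈ Ideal.span {(p : ℤ_[p]) ^ 1} := by
        rw [pow_one, ← PadicInt.maximalIdeal_eq_span_p]
        exact (IsLocalRing.mem_maximalIdeal _).2 (h i)
      rw [← PadicInt.ker_toZModPow, RingHom.mem_ker] at hm
      rw [hm, ZMod.val_zero]
    rw [at'_basis b y 1, hz, hz, zero_nsmul, zero_nsmul, zero_add]
  obtain ⟨u, hu⟩ := hi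
  have hother : ∀ i : Fin 2, ∀ v : Tate W p,
      v = b.repr v i • b i + b.repr v (1 - i) • b (1 - i) := by
    intro i v
    conv_lhs => rw [← b.sum_repr v, Fin.sum_univ_two]
    fin_cases i
    · rfl
    · exact add_comm _ _
  have hspan : ⊤ ≤ Submodule.span ℤ_[p] (Set.range ![y, b (1 - i)]) := by
    intro v _
    rw [hother i v]
    have hbi : b i ∈ Submodule.span ℤ_[p] (Set.range ![y, b (1 - i)]) := by
      have e : b i = (↑u⁻¹ : ℤ_[p]) • (y - b.repr y (1 - i) • b (1 - i)) := by
        have h1 : y - b.repr y (1 - i) • b (1 - i) = b.repr y i • b i :=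
          sub_eq_iff_eq_add.2 (hother i y)
        rw [h1, ← hu, smul_smul, Units.inv_mul, one_smul]
      rw [e]
      exact Submodule.smul_mem _ _ (Submodule.sub_mem _ (Submodule.subset_span ⟨0, rfl⟩)
        (Submodule.smul_mem _ _ (Submodule.subset_span ⟨1, rfl⟩)))
    exact Submodule.add_mem _ (Submodule.smul_mem _ _ hbi)
      (Submodule.smul_mem _ _ (Submodule.subset_span ⟨1, rfl⟩))
  have : Module.Finite ℤ_[p] (Tate W p) := Module.Finite.of_basis b
  have : Module.Free ℤ_[p] (Tate W p) := Module.Free.of_basis b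
  let b' : Module.Basis (Fin 2) ℤ_[p] (Tate W p) :=
    basisOfTopLeSpanOfCardEqFinrank ![y, b (1 - i)] hspan
      (Module.finrank_eq_card_basis b).symm
  have hb' : ∀ j, b' j = ![y, b (1 - i)] j := fun j => by
    simp [b', coe_basisOfTopLeSpanOfCardEqFinrank]
  refine ⟨b', le_antisymm (fun v hv => ?_) ?_⟩
  · have hv' := (b'.sum_repr v).symm
    rw [Fin.sum_univ_two] at hv'
    by_cases hc : b'.repr v 1 = 0
    · rw [hv', hc, zero_smul, add_zero]
      exact Submodule.smul_mem _ _ (Submodule.mem_span_singleton_self _)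
    · exfalso
      have h1 : b'.repr v 1 • b' 1 ∈ kernelLine W p A := by
        have := (kernelLine W p A).sub_mem hv
          ((kernelLine W p A).smul_mem (b'.repr v 0) (show b' 0 ∈ kernelLine W p A by
            rw [hb']; exact hyL))
        rwa [sub_eq_iff_eq_add'.2 hv'] at this
      have h2 := mem_kernelLine_of_smul hc h1
      refine kernelLine_ne_top hA hΔ0 hΔ hc4 hodd (eq_top_iff.2 fun w _ => ?_)
      rw [← b'.sum_repr w, Fin.sum_univ_two]
      exact (kernelLine W p A).add_mem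
        ((kernelLine W p A).smul_mem _ (by rw [hb']; exact hyL))
        ((kernelLine W p A).smul_mem _ h2)
  · rw [Submodule.span_singleton_le_iff_mem, hb']
    exact hyL

/-- The decomposition group acts on the line by a character `x` and on the quotient by a character
`z`, and `x ≡ a z` modulo `p ^ n` if `σ` acts by `a` on the `p ^ n`-th roots of unity. -/
theorem exists_characters (hodd : Odd p) {σ : GQ} (hσ : σ ∈ A.decompositionSubgroup ℚ) :
    ∃ x z : ℤ_[p], (∀ w ∈ kernelLine W p A, Tate.galEnd σ w = x • w) ∧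
      (∀ v : Tate W p, Tate.galEnd σ v - z • v ∈ kernelLine W p A) ∧
      ∀ (n a : ℕ), (∀ μ : Qbar, μ ^ p ^ n = 1 → σ μ = μ ^ a) →
        x - (a : ℤ_[p]) * z ∈ Ideal.span {((p ^ n : ℕ) : ℤ_[p])} := by
  obtain ⟨b, hb⟩ := exists_basis_kernelLine hA hΔ0 hΔ hc4 hodd
  obtain ⟨z, hz, hq⟩ := exists_sign hA hΔ0 hΔ hc4 hσ
  have hb0 : b 0 ∈ kernelLine W p A := hb ▸ Submodule.mem_span_singleton_self _
  have hmem := galois_mem hA hΔ0 hΔ hc4 hσ hb0
  rw [hb, Submodule.mem_span_singleton] at hmem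
  obtain ⟨x, hx⟩ := hmem
  refine ⟨x, z, fun w hw => ?_, fun v => ?_, fun n a ha => ?_⟩
  · rw [hb, Submodule.mem_span_singleton] at hw
    obtain ⟨c, rfl⟩ := hw
    rw [map_smul, Tate.galEnd_apply, ← hx, smul_smul, smul_smul, mul_comm]
  · rw [Tate.galEnd_apply]
    exact hq v
  have h1 : σ • b 1 - z • b 1 ∈ ℤ_[p] ∙ b 0 := hb ▸ hq (b 1)
  obtain ⟨c, hc⟩ := Submodule.mem_span_singleton.1 h1
  rw [eq_sub_iff_add_eq] at hc
  have hdet : LinearMap.det ((tateRep (p := p) hΔ0).ρ σ) = x * z := by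
    show LinearMap.det (Tate.galEnd σ : Module.End ℤ_[p] (Tate W p)) = x * z
    rw [← LinearMap.det_toMatrix b, Matrix.det_fin_two]
    simp only [LinearMap.toMatrix_apply, Tate.galEnd_apply]
    rw [← hc, ← hx]
    simp
  have hd := (tateRep_detIsCyclotomic (p := p) hΔ0).2 n σ a ha
  rw [hdet] at hd
  have e : x - (a : ℤ_[p]) * z = z * (x * z - a) := by linear_combination (-x) * hz
  rw [e]
  exact Ideal.mul_mem_left _ _ hd

end FermatAgent.TateRep
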