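import Fermat.Agent.TateRep.Local
import Fermat.Agent.TateRep.OrdinaryP
import Fermat.Agent.TateRep.Flat

/-!
# The Tate module of a semistable curve as a lift of its residual representation

For a semistable model `W` and a prime `p`, the representation `ρ` on `T_p W`:

* at a good `q ≠ p` is unramified, with Frobenius polynomial `X² - a_q X + q`;
* at a bad `q ≠ p` is unipotent on inertia, with Frobenius polynomial `(X - ε)(X - εq)` for the
  sign `ε = a_q - 1`;
* is flat at `p` if `p` is good.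
-/

set_option autoImplicit false

noncomputable section

open WeierstrassCurve Polynomial
open scoped WeierstrassCurve.Affine

namespace FermatAgent.TateRep

local notation "Qbar" => AlgebraicClosure ℚ
local notation "GQ" => AlgebraicClosure ℚ ≃ₐ[ℚ] AlgebraicClosure ℚ

variable {W : WeierstrassCurve ℤ} {p : ℕ} [hp : Fact p.Prime]

/-- A prime `q ≠ p` of good reduction: `ρ` is unramified at `q` and Frobenius has characteristic
polynomial `X² - a_q X + q`. -/
theorem tateRep_good (hΔ : W.Δ ≠ 0) {q : ℕ} (hq : q.Prime) (hqp : q ≠ p)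
    (hgood : W.IsGoodPrimeFor q) :
    (tateRep (p := p) hΔ).IsUnramifiedAt q ∧
      ∀ A : ValuationSubring Qbar, A.LiesOverPrime q → ∀ σ : GQ, A.IsFrobeniusAt σ q →
        LinearMap.charpoly ((tateRep (p := p) hΔ).ρ σ) =
          X ^ 2 - C (W.apOfModel q : ℤ_[p]) * X + C (q : ℤ_[p]) :=
  ⟨tateRep_isUnramifiedAt hq hqp hgood hΔ,
    fun _A hA _σ hσ => charpoly_frobenius_good hq hqp hgood hΔ hA hσ⟩

/-- A prime `q ≠ p` of bad reduction of a semistable model: inertia at `q` is unipotent, `a_q - 1`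
is a sign `ε`, and Frobenius has characteristic polynomial `X² - ε(q + 1) X + q`. -/
theorem tateRep_bad (hΔ : W.Δ ≠ 0) (hW : W.IsSemistableModel) {q : ℕ} (hq : q.Prime)
    (hqp : q ≠ p) (hbad : ¬W.IsGoodPrimeFor q) :
    (tateRep (p := p) hΔ).IsUnipotentOnInertiaAt q ∧
      ∀ A : ValuationSubring Qbar, A.LiesOverPrime q → ∀ σ : GQ, A.IsFrobeniusAt σ q →
        (W.apOfModel q - 1) ^ 2 = 1 ∧
        LinearMap.charpoly ((tateRep (p := p) hΔ).ρ σ) =
          X ^ 2 - C (((W.apOfModel q - 1) * (q + 1) : ℤ) : ℤ_[p]) * X + C (q : ℤ_[p]) := by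
  have hdiv : (q : ℤ) ∣ W.Δ := not_not.1 hbad
  exact ⟨tateRep_isUnipotentOnInertiaAt hq hqp hΔ hdiv (hW q hq hdiv),
    fun _A hA _σ hσ => charpoly_frobenius_mult hq hqp hΔ hdiv (hW q hq hdiv) hA hσ⟩

/-- If `W` has good reduction at `p` then `ρ` is flat at `p`. -/
theorem tateRep_flat (hΔ : W.Δ ≠ 0) (hgood : W.IsGoodPrimeFor p) :
    (tateRep (p := p) hΔ).IsFlatAt p :=
  tateRep_isFlatAt hΔ hgood

end FermatAgent.TateRep
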