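import Fermat.Agent.TateRep.OrdinaryP

/-!
# Frobenius at a multiplicative lifting prime on the unramified quotient
-/

set_option autoImplicit false

noncomputable section

open WeierstrassCurve
open scoped WeierstrassCurve.Affine

namespace FermatAgent.TateRep

open FermatAgent.ECLocal

local notation "Qbar" => AlgebraicClosure ℚ

variable {W : WeierstrassCurve ℤ} {p : ℕ} [hp : Fact p.Prime] {A : ValuationSubring Qbar}
  (hA : A.LiesOverPrime p) (hΔ0 : W.Δ ≠ 0) (hΔ : (p : ℤ) ∣ W.Δ) (hc4 : ¬(p : ℤ) ∣ W.c₄)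

include hA hΔ0 hΔ hc4

/-- **Frobenius acts on the quotient of `T_p W` by the kernel of reduction as `a_p - 1`.** -/
theorem frobenius_sub_mem_kernelLine {σ : Qbar ≃ₐ[ℚ] Qbar} (hσ : A.IsFrobeniusAt σ p)
    (x : Tate W p) :
    Tate.galEnd σ x - ((W.apOfModel p - 1 : ℤ) : ℤ_[p]) • x ∈ kernelLine W p A := fun k => by
  obtain ⟨z, -, hz, h⟩ := exists_sign_sub_isE0_spec hA hΔ0 hΔ hc4 hσ.mem_decompositionSubgroup
  refine isE1_of_isE0_pow hA hΔ0 hΔ hc4 ?_ (Tate.pow_nsmul_self _ k)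
  have e : (((W.apOfModel p - 1 : ℤ) : ℤ_[p]) • x) = z • x := by
    rw [← hz hσ]; exact Int.cast_smul_eq_zsmul ℤ_[p] z x
  rw [e, map_sub, Tate.galEnd_apply, Tate.at'_galois_smul, map_zsmul]
  exact h _

end FermatAgent.TateRep

end
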