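import Fermat.Agent.TateRep.Basic
import Fermat.Agent.EC.DetCyclotomic
import Fermat.Agent.ES.Tate.Cyclo
import Fermat.Prelude.Def_GaloisRep_LocalConditions

/-!
# The determinant of the Tate module is cyclotomic

The Weil pairing at each level `p^n` of a basis of `T_p W` is a primitive root of unity, on which
`σ` acts through the determinant of its matrix; hence `det ρ(σ)` is the `p`-adic cyclotomic
character.
-/

set_option autoImplicit false

noncomputable section

open WeierstrassCurve IsLocalRing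
open scoped WeierstrassCurve.Affine

namespace FermatAgent.TateRep

local notation "Qbar" => AlgebraicClosure ℚ
local notation "GQ" => AlgebraicClosure ℚ ≃ₐ[ℚ] AlgebraicClosure ℚ

variable {W : WeierstrassCurve ℤ} {p : ℕ} [hp : Fact p.Prime]

/-- The point of level `k` in terms of the coordinates in a basis, reduced modulo `p ^ k`. -/
theorem at'_basis (b : Module.Basis (Fin 2) ℤ_[p] (Tate W p)) (x : Tate W p) (k : ℕ) :
    Tate.at' k x = (PadicInt.toZModPow k (b.repr x 0)).val • Tate.at' k (b 0) +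
      (PadicInt.toZModPow k (b.repr x 1)).val • Tate.at' k (b 1) := by
  conv_lhs => rw [← b.sum_repr x, Fin.sum_univ_two, map_add, Tate.at'_smul_val, Tate.at'_smul_val]

/-- Basis vectors are nonzero at level one. -/
theorem at'_one_basis_ne_zero (b : Module.Basis (Fin 2) ℤ_[p] (Tate W p)) (i : Fin 2) :
    Tate.at' 1 (b i) ≠ 0 := by
  intro h
  have h1 : p ^ 1 • Tate.shift (b i) 1 h = b i := Tate.pow_nsmul_shift _ _ h
  rw [pow_one, ← Nat.cast_smul_eq_nsmul ℤ_[p]] at h1
  have h2 : (p : ℤ_[p]) * b.repr (Tate.shift (b i) 1 h) i = 1 := by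
    have := congrArg (fun v => b.repr v i) h1
    simpa using this
  exact PadicInt.prime_p.not_isUnit (IsUnit.of_mul_eq_one _ h2)

/-- If `σ` raises the `p ^ n`-th roots of unity to the power `a`, then `det ρ(σ) ≡ a` modulo
`p ^ n`. -/
theorem det_congr (hΔ : W.Δ ≠ 0) (n : ℕ) (σ : GQ) (a : ℕ)
    (ha : ∀ μ : Qbar, μ ^ p ^ n = 1 → σ μ = μ ^ a) :
    PadicInt.toZModPow n (LinearMap.det ((tateRep (p := p) hΔ).ρ σ)) = (a : ZMod (p ^ n)) := by
  classical
  obtain ⟨b⟩ := Tate.exists_basis (p := p) hΔ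
  show PadicInt.toZModPow n (LinearMap.det (Tate.galEnd σ : Module.End ℤ_[p] (Tate W p))) = _
  rw [← LinearMap.det_toMatrix b, Matrix.det_fin_two]
  simp only [LinearMap.toMatrix_apply, Tate.galEnd_apply]
  cases n with
  | zero =>
    have : Subsingleton (ZMod (p ^ 0)) := by rw [pow_zero]; infer_instance
    exact Subsingleton.elim _ _
  | succ n =>
  set N := p ^ (n + 1) with hN
  have : NeZero N := ⟨pow_ne_zero _ hp.out.ne_zero⟩
  set c : Fin 2 → Fin 2 → ℕ :=
    fun i j => (PadicInt.toZModPow (n + 1) (b.repr (σ • b j) i)).val with hc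
  set X := Tate.at' (n + 1) (b 0) with hX
  set Y := Tate.at' (n + 1) (b 1) with hY
  have hell : WeierstrassCurve.IsElliptic
      ((W.map (Int.castRingHom ℚ))⁄Qbar : WeierstrassCurve Qbar) :=
    ⟨isUnit_iff_ne_zero.2 (EC.baseChange_Δ_ne_zero _ (EC.intMap_Δ_ne_zero hΔ))⟩
  have hNK : (N : Qbar) ≠ 0 := Nat.cast_ne_zero.2 (NeZero.ne N)
  have hXN : N • X = 0 := Tate.pow_nsmul_self _ _
  have hYN : N • Y = 0 := Tate.pow_nsmul_self _ _
  have hmul : ∀ (m : ℕ) {P : Pts W}, N • P = 0 → N • (m • P) = 0 := fun m P hP => by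
    rw [← mul_nsmul', mul_comm, mul_nsmul', hP, nsmul_zero]
  let e : Pts W → Pts W → Qbar := fun S T =>
    EC.weilPair (V := ((W.map (Int.castRingHom ℚ))⁄Qbar : WeierstrassCurve Qbar)) N S T
  have he : ∀ a₁ a₂ b₁ b₂ : ℕ, e (a₁ • X + a₂ • Y) (b₁ • X + b₂ • Y) =
      e X Y ^ (a₁ * b₂) * e Y X ^ (a₂ * b₁) := by
    intro a₁ a₂ b₁ b₂
    have hB : N • (b₁ • X + b₂ • Y) = 0 := by
      rw [nsmul_add, hmul _ hXN, hmul _ hYN, add_zero]
    simp only [e]
    rw [EC.weilPair_add_left hNK (hmul _ hXN) (hmul _ hYN) hB,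
      EC.weilPair_add_right hNK (hmul _ hXN) (hmul _ hXN) (hmul _ hYN),
      EC.weilPair_add_right hNK (hmul _ hYN) (hmul _ hXN) (hmul _ hYN),
      EC.weilPair_nsmul_left hNK hXN (hmul _ hXN), EC.weilPair_nsmul_left hNK hXN (hmul _ hYN),
      EC.weilPair_nsmul_left hNK hYN (hmul _ hXN), EC.weilPair_nsmul_left hNK hYN (hmul _ hYN),
      EC.weilPair_nsmul_right hNK hXN hXN, EC.weilPair_nsmul_right hNK hXN hYN,
      EC.weilPair_nsmul_right hNK hYN hXN, EC.weilPair_nsmul_right hNK hYN hYN,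
      EC.weilPair_self hNK hXN, EC.weilPair_self hNK hYN]
    simp only [one_pow, one_mul, mul_one, ← pow_mul]
    rw [mul_comm b₂ a₁, mul_comm b₁ a₂]
  set ζ := e X Y with hζ
  have hinv : ζ * e Y X = 1 := by
    have h := EC.weilPair_self hNK (T := X + Y)
      (show N • (X + Y) = 0 by rw [nsmul_add, hXN, hYN, add_zero])
    have h' := he 1 1 1 1
    simp only [one_nsmul, mul_one, pow_one] at h'
    exact h'.symm.trans h
  have hζN : ζ ^ N = 1 := EC.weilPair_pow_eq_one hNK hXN hYN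
  have hprim : IsPrimitiveRoot ζ N := by
    rw [IsPrimitiveRoot.iff_orderOf]
    refine orderOf_eq_prime_pow (fun h1 => ?_) hζN
    refine at'_one_basis_ne_zero b 1 ?_
    have hT : Tate.at' 1 (b 1) = p ^ n • Y := by
      rw [hY, add_comm n 1, Tate.pow_nsmul_at']
    rw [hT]
    refine EC.weilPair_nondegenerate hNK (hmul _ hYN) fun S hS => ?_
    obtain ⟨x, hx⟩ := Tate.exists_at' (p := p) hΔ (k := n + 1) hS
    rw [← hx, at'_basis b x, ← hX, ← hY, ← zero_add (p ^ n • Y),
      show (0 : Pts W) = 0 • X from (zero_nsmul X).symm]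
    refine (he _ _ 0 (p ^ n)).trans ?_
    rw [mul_zero, pow_zero, mul_one, mul_comm, pow_mul, h1, one_pow]
  have h2 := EC.weilPair_mapPoint hNK σ.toRingEquiv (EC.map_algEquiv_baseChange σ) hXN hYN
  rw [EC.mapPoint_algEquiv, EC.mapPoint_algEquiv] at h2
  have hσX : σ • X = c 0 0 • X + c 1 0 • Y := by
    rw [hX, ← Tate.at'_galois_smul, at'_basis b]
  have hσY : σ • Y = c 0 1 • X + c 1 1 • Y := by
    rw [hY, ← Tate.at'_galois_smul, at'_basis b]
  rw [hσX, hσY] at h2
  have h3 : ζ ^ (c 0 0 * c 1 1) = ζ ^ (a + c 0 1 * c 1 0) := by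
    rw [pow_add, ← ha ζ hζN]
    have h4 := (he (c 0 0) (c 1 0) (c 0 1) (c 1 1)).symm.trans h2
    show _ = σ.toRingEquiv ζ * _
    rw [← h4, mul_assoc, mul_comm (c 0 1) (c 1 0), ← mul_pow, mul_comm (e Y X), hinv, one_pow,
      mul_one]
  rw [(hprim.isOfFinOrder (NeZero.ne N)).pow_eq_pow_iff_modEq, ← hprim.eq_orderOf,
    ← ZMod.natCast_eq_natCast_iff, Nat.cast_add, Nat.cast_mul, Nat.cast_mul] at h3
  simp only [hc, ZMod.natCast_zmod_val] at h3
  rw [map_sub, map_mul, map_mul, h3]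
  ring

/-- `p` lies in the maximal ideal of `ℤ_p`. -/
theorem natCast_mem_maximalIdeal : (p : ℤ_[p]) ∈ maximalIdeal ℤ_[p] := by
  rw [PadicInt.maximalIdeal_eq_span_p]
  exact Ideal.mem_span_singleton_self _

/-- The determinant of `T_p W` is cyclotomic, in the sense of the deformation conditions. -/
theorem tateRep_detIsCyclotomic (hΔ : W.Δ ≠ 0) : (tateRep (p := p) hΔ).DetIsCyclotomic p :=
  ⟨natCast_mem_maximalIdeal, fun n σ a ha => by
    rw [Nat.cast_pow, ← PadicInt.ker_toZModPow, RingHom.mem_ker, map_sub, det_congr hΔ n σ a ha,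
      map_natCast, sub_self]⟩

/-- **`det ρ(σ)` is the `p`-adic cyclotomic character of `σ`.** -/
theorem det_tateRep (hΔ : W.Δ ≠ 0) (σ : GQ) :
    LinearMap.det ((tateRep (p := p) hΔ).ρ σ) = ES.padCyclo p σ := by
  refine PadicInt.ext_of_toZModPow.1 fun n => ?_
  rw [det_congr hΔ n σ _ fun μ hμ => ES.padCyclo_spec p σ n hμ, ZMod.natCast_zmod_val]

end FermatAgent.TateRep
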