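import Fermat.Agent.GaloisBasic.AdicLimit
import Fermat.Agent.EC.TorsionRat
import Fermat.Agent.ECLocal.IntCurve
import Fermat.Prelude.Def_GaloisRep_Adic
import Mathlib

/-!
# The Tate module of an integral Weierstrass curve

For `W` over `ℤ` with `Δ ≠ 0` and a prime `p`, the Tate module `T_p W` is the `ℤ_p`-module of
sequences of points `x_k` over `ℚ̄` with `x_0 = 0` and `p • x_{k+1} = x_k`.  It is free of rank
two (`Tate.exists_basis`), the Galois action on it is adically continuous
(`Tate.isAdicContinuous`), and `tateRep` is the resulting `p`-adic Galois representation.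
-/

set_option autoImplicit false

noncomputable section

open WeierstrassCurve
open scoped WeierstrassCurve.Affine

namespace FermatAgent.TateRep

local notation "Qbar" => AlgebraicClosure ℚ
local notation "GQ" => AlgebraicClosure ℚ ≃ₐ[ℚ] AlgebraicClosure ℚ

/-- The points of `W` over `ℚ̄`. -/
abbrev Pts (W : WeierstrassCurve ℤ) : Type := ((W.map (Int.castRingHom ℚ))⁄Qbar).Point

variable (W : WeierstrassCurve ℤ) (p : ℕ)

/-- The sequences `x` of points with `x 0 = 0` and `p • x (k + 1) = x k` for all `k`. -/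
def tateGroup : AddSubgroup (ℕ → Pts W) where
  carrier := {x | x 0 = 0 ∧ ∀ k, p • x (k + 1) = x k}
  zero_mem' := ⟨rfl, fun k => nsmul_zero p⟩
  add_mem' {x y} hx hy := ⟨by rw [Pi.add_apply, hx.1, hy.1, add_zero],
    fun k => by rw [Pi.add_apply, Pi.add_apply, nsmul_add, hx.2, hy.2]⟩
  neg_mem' {x} hx := ⟨by rw [Pi.neg_apply, hx.1, neg_zero],
    fun k => by rw [Pi.neg_apply, Pi.neg_apply, neg_nsmul, hx.2]⟩

/-- The Tate module `T_p W`, the limit of the groups `W[p^k]`. -/
abbrev Tate : Type := ↥(tateGroup W p)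

namespace Tate

variable {W p}

/-- The projection `T_p W → W[p^k]`, `x ↦ x_k`. -/
def at' (k : ℕ) : Tate W p →+ Pts W where
  toFun x := x.1 k
  map_zero' := rfl
  map_add' _ _ := rfl

/-- A point of the Tate module is determined by its layers. -/
@[ext] theorem ext {x y : Tate W p} (h : ∀ k, at' k x = at' k y) : x = y := Subtype.ext (funext h)

/-- The layer zero of the Tate module is trivial. -/
theorem at'_zero (x : Tate W p) : at' 0 x = 0 := x.2.1

/-- Multiplication by `p` lowers the layer by one. -/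
theorem nsmul_at'_succ (x : Tate W p) (k : ℕ) : p • at' (k + 1) x = at' k x := x.2.2 k

/-- Multiplication by `p ^ j` lowers the layer by `j`. -/
theorem pow_nsmul_at' (x : Tate W p) (j k : ℕ) : p ^ j • at' (k + j) x = at' k x := by
  induction j with
  | zero => rw [pow_zero, one_nsmul, add_zero]
  | succ j ih => rw [pow_succ, mul_nsmul', ← add_assoc, nsmul_at'_succ, ih]

/-- The point of level `k` is killed by `p ^ k`. -/
theorem pow_nsmul_self (x : Tate W p) (k : ℕ) : p ^ k • at' k x = 0 := by
  have h := pow_nsmul_at' x k 0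
  rwa [zero_add, at'_zero] at h

/-- For `x_j = 0`, the system `k ↦ x_{k+j}`: the quotient of `x` by `p ^ j`. -/
def shift (x : Tate W p) (j : ℕ) (h : at' j x = 0) : Tate W p :=
  ⟨fun k => at' (k + j) x, by show at' (0 + j) x = 0; rw [zero_add, h],
    fun k => by
      show p • at' (k + 1 + j) x = at' (k + j) x
      rw [add_right_comm, nsmul_at'_succ]⟩

/-- An element of `T_p W` vanishing at level `j` is divisible by `p ^ j`. -/
theorem pow_nsmul_shift (x : Tate W p) (j : ℕ) (h : at' j x = 0) : p ^ j • shift x j h = x :=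
  Tate.ext fun k => by rw [map_nsmul]; exact pow_nsmul_at' x j k

variable [hp : Fact p.Prime]

omit hp in
theorem nsmul_congr {P : Pts W} {k m n : ℕ} (hP : p ^ k • P = 0)
    (h : (m : ZMod (p ^ k)) = n) : m • P = n • P := by
  have key : ∀ a : ℕ, a • P = (a % p ^ k) • P := fun a => by
    conv_lhs => rw [← Nat.mod_add_div a (p ^ k), add_nsmul, mul_comm, mul_nsmul', hP, nsmul_zero,
      add_zero]
  rw [key m, key n, (ZMod.natCast_eq_natCast_iff' m n (p ^ k)).1 h]

instance : SMul ℤ_[p] (Tate W p) where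
  smul a x := ⟨fun k => (PadicInt.toZModPow k a).val • at' k x, by
      show _ • at' 0 x = 0
      rw [at'_zero, nsmul_zero],
    fun k => by
      show p • ((PadicInt.toZModPow (k + 1) a).val • at' (k + 1) x) = _
      rw [smul_comm, nsmul_at'_succ]
      refine nsmul_congr (pow_nsmul_self x k) ?_
      rw [ZMod.natCast_zmod_val, ← PadicInt.cast_toZModPow k (k + 1) k.le_succ]
      rw [ZMod.natCast_val]⟩

theorem at'_smul (a : ℤ_[p]) (x : Tate W p) {k m : ℕ} (h : PadicInt.toZModPow k a = m) :
    at' k (a • x) = m • at' k x :=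
  nsmul_congr (pow_nsmul_self x k) (by rw [ZMod.natCast_zmod_val, h])

/-- A `p`-adic integer acts on layer `k` through its residue modulo `p ^ k`. -/
theorem at'_smul_val (a : ℤ_[p]) (x : Tate W p) (k : ℕ) :
    at' k (a • x) = (PadicInt.toZModPow k a).val • at' k x := rfl

instance : Module ℤ_[p] (Tate W p) where
  one_smul x := Tate.ext fun k => by
    rw [at'_smul (m := 1) _ _ (by rw [map_one, Nat.cast_one]), one_nsmul]
  mul_smul a b x := Tate.ext fun k => by
    rw [at'_smul_val a, at'_smul_val b, smul_smul]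
    exact at'_smul _ _ (by rw [map_mul, Nat.cast_mul, ZMod.natCast_zmod_val, ZMod.natCast_zmod_val])
  smul_zero a := Tate.ext fun k => by rw [at'_smul_val, map_zero, nsmul_zero]
  smul_add a x y := Tate.ext fun k => by
    rw [at'_smul_val, map_add, map_add, at'_smul_val, at'_smul_val, nsmul_add]
  add_smul a b x := Tate.ext fun k => by
    rw [map_add, at'_smul_val a, at'_smul_val b, ← add_nsmul]
    exact at'_smul _ _ (by rw [map_add, Nat.cast_add, ZMod.natCast_zmod_val, ZMod.natCast_zmod_val])
  zero_smul x := Tate.ext fun k => by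
    rw [map_zero, at'_smul (m := 0) _ _ (by rw [map_zero, Nat.cast_zero]), zero_nsmul]

section Basis

variable (hΔ : W.Δ ≠ 0)
include hΔ

/-- `#W[n] = n²`. -/
theorem natCard_torsion {n : ℕ} (hn : n ≠ 0) :
    Nat.card {P : Pts W // n • P = 0} = n ^ 2 := by
  rw [← EC.natCard_torsionBy_rat (W.map (Int.castRingHom ℚ)) (EC.intMap_Δ_ne_zero hΔ) hn]
  exact Nat.card_congr (Equiv.subtypeEquivRight fun P => by
    rw [Submodule.mem_torsionBy_iff, natCast_zsmul])

/-- There are finitely many points killed by a nonzero integer. -/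
theorem finite_torsion {n : ℕ} (hn : n ≠ 0) : Finite {P : Pts W // n • P = 0} :=
  Nat.finite_of_card_ne_zero (by rw [natCard_torsion hΔ hn]; exact pow_ne_zero 2 hn)

/-- `T_p W → W[p]` is surjective. -/
theorem exists_at'_one {P : Pts W} (hP : p • P = 0) : ∃ x : Tate W p, at' 1 x = P := by
  classical
  have hdiv : ∀ Q : Pts W, ∃ R, p • R = Q := fun Q =>
    EC.exists_nsmul_eq (EC.baseChange_Δ_ne_zero _ (EC.intMap_Δ_ne_zero hΔ)) hp.out.ne_zero Q
  choose R hR using hdiv
  refine ⟨⟨fun k => Nat.rec (0 : Pts W) (fun j Q => if j = 0 then P else R Q) k, rfl,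
    fun k => ?_⟩, rfl⟩
  cases k with
  | zero => exact hP
  | succ k => exact hR _

/-- `T_p W → W[p^k]` is surjective, the group `W(ℚ̄)` being divisible. -/
theorem exists_at' {k : ℕ} {P : Pts W} (hP : p ^ k • P = 0) : ∃ x : Tate W p, at' k x = P := by
  classical
  have hdiv : ∀ Q : Pts W, ∃ R, p • R = Q := fun Q =>
    EC.exists_nsmul_eq (EC.baseChange_Δ_ne_zero _ (EC.intMap_Δ_ne_zero hΔ)) hp.out.ne_zero Q
  choose R hR using hdiv
  have hpow : ∀ j : ℕ, p ^ j • R^[j] P = P := by
    intro j
    induction j with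
    | zero => exact (by rw [pow_zero, one_nsmul]; rfl)
    | succ j ih => rw [pow_succ, mul_nsmul', Function.iterate_succ_apply', hR, ih]
  exact ⟨⟨fun j => p ^ k • R^[j] P, hP, fun j => by
    rw [← mul_nsmul', mul_comm, mul_nsmul', Function.iterate_succ_apply', hR]⟩, hpow k⟩

/-- There are two elements of `T_p W` whose points of level one are independent in `W[p]`. -/
theorem exists_pair : ∃ X Y : Tate W p, ∀ a b : ℕ,
    a • at' 1 X + b • at' 1 Y = 0 → p ∣ a ∧ p ∣ b := by
  classical
  have := finite_torsion hΔ hp.out.ne_zero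
  obtain ⟨⟨P, hP⟩, hP0⟩ : ∃ P : {P : Pts W // p • P = 0}, P.1 ≠ 0 := by
    by_contra hall
    push Not at hall
    have : Subsingleton {P : Pts W // p • P = 0} :=
      ⟨fun a b => Subtype.ext ((hall a).trans (hall b).symm)⟩
    have h := Finite.card_le_one_iff_subsingleton.2
      (inferInstance : Subsingleton {P : Pts W // p • P = 0})
    rw [natCard_torsion hΔ hp.out.ne_zero] at h
    exact absurd h (Nat.one_lt_pow two_ne_zero hp.out.one_lt).not_ge
  obtain ⟨⟨Q, hQ⟩, hQn⟩ : ∃ Q : {P : Pts W // p • P = 0}, ∀ i : Fin p, Q.1 ≠ (i : ℕ) • P := by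
    by_contra hall
    push Not at hall
    choose f hf using hall
    have hinj : Function.Injective f := fun a b h => Subtype.ext (by rw [hf a, hf b, h])
    have h := Nat.card_le_card_of_injective f hinj
    rw [natCard_torsion hΔ hp.out.ne_zero, Nat.card_fin, pow_two] at h
    exact absurd h (lt_mul_of_one_lt_right hp.out.pos hp.out.one_lt).not_ge
  obtain ⟨X, hX⟩ := exists_at'_one hΔ hP
  obtain ⟨Y, hY⟩ := exists_at'_one hΔ hQ
  refine ⟨X, Y, fun a b h => ?_⟩
  rw [hX, hY] at h
  have hb : p ∣ b := by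
    by_contra hb
    have hb0 : (b : ZMod p) ≠ 0 := fun e => hb ((ZMod.natCast_eq_zero_iff b p).1 e)
    set c := ((b : ZMod p)⁻¹).val with hcdef
    have h1 : c • (b • Q) = Q := by
      rw [← mul_nsmul']
      conv_rhs => rw [← one_nsmul Q]
      exact nsmul_congr (k := 1) (by rwa [pow_one]) (by
        rw [pow_one, Nat.cast_mul, hcdef, ZMod.natCast_zmod_val, inv_mul_cancel₀ hb0,
          Nat.cast_one])
    have h2 : Q = (c * (p - 1) * a) • P := by
      rw [← h1, eq_neg_of_add_eq_zero_right h, neg_nsmul, ← mul_nsmul', eq_comm,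
        eq_neg_iff_add_eq_zero,
        ← add_nsmul]
      refine (nsmul_congr (k := 1) (n := 0) (by rwa [pow_one]) ?_).trans (zero_nsmul _)
      rw [pow_one]; push_cast [hp.out.one_le]; rw [ZMod.natCast_self]; ring
    refine hQn ⟨(c * (p - 1) * a) % p, Nat.mod_lt _ hp.out.pos⟩ ?_
    refine h2.trans (nsmul_congr (k := 1) (by rwa [pow_one]) ?_)
    rw [pow_one]; exact (ZMod.natCast_mod _ p).symm
  refine ⟨?_, hb⟩
  obtain ⟨b', rfl⟩ := hb
  rw [mul_comm, mul_nsmul', hQ, nsmul_zero, add_zero] at h
  by_contra ha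
  refine hP0 ?_
  have ha0 : (a : ZMod p) ≠ 0 := fun e => ha ((ZMod.natCast_eq_zero_iff a p).1 e)
  show P = 0
  rw [← one_nsmul P]
  refine (nsmul_congr (p := p) (k := 1) (m := 1) (n := ((a : ZMod p)⁻¹).val * a)
    (by rwa [pow_one]) ?_).trans
    (by rw [mul_nsmul', h, nsmul_zero])
  rw [pow_one, Nat.cast_mul, ZMod.natCast_zmod_val, inv_mul_cancel₀ ha0, Nat.cast_one]

omit hΔ hp in
/-- Elements independent at level one are independent at every level: a combination vanishing
at level `k` has coefficients divisible by `p ^ k`. -/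
theorem pow_dvd_of_combination_eq_zero {X Y : Tate W p}
    (hXY : ∀ a b : ℕ, a • at' 1 X + b • at' 1 Y = 0 → p ∣ a ∧ p ∣ b) :
    ∀ k a b : ℕ, a • at' k X + b • at' k Y = 0 → p ^ k ∣ a ∧ p ^ k ∣ b := by
  intro k
  induction k with
  | zero => intro a b _; simp
  | succ k ih =>
    intro a b h
    have h1 := congrArg (fun Z => p ^ k • Z) h
    simp only [nsmul_add, smul_comm (p ^ k) a, smul_comm (p ^ k) b, nsmul_zero] at h1
    rw [add_comm k 1, pow_nsmul_at', pow_nsmul_at'] at h1
    obtain ⟨⟨a', rfl⟩, ⟨b', rfl⟩⟩ := hXY a b h1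
    rw [mul_comm p a', mul_comm p b', mul_nsmul', mul_nsmul', nsmul_at'_succ,
      nsmul_at'_succ] at h
    obtain ⟨ha, hb⟩ := ih a' b' h
    exact ⟨pow_succ' p k ▸ mul_dvd_mul_left p ha, pow_succ' p k ▸ mul_dvd_mul_left p hb⟩

omit hΔ in
/-- For such elements, coordinates at level `k` are determined modulo `p ^ k`. -/
theorem natCast_eq_of_combination_eq {X Y : Tate W p}
    (hXY : ∀ a b : ℕ, a • at' 1 X + b • at' 1 Y = 0 → p ∣ a ∧ p ∣ b) {k a b c d : ℕ}
    (h : a • at' k X + b • at' k Y = c • at' k X + d • at' k Y) :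
    (a : ZMod (p ^ k)) = c ∧ (b : ZMod (p ^ k)) = d := by
  have : NeZero (p ^ k) := ⟨pow_ne_zero k hp.out.ne_zero⟩
  have e : ∀ (m n : ℕ) (Z : Tate W p),
      ((m : ZMod (p ^ k)) - n).val • at' k Z + n • at' k Z = m • at' k Z := fun m n Z => by
    rw [← add_nsmul]
    exact nsmul_congr (pow_nsmul_self Z k) (by
      rw [Nat.cast_add, ZMod.natCast_zmod_val, sub_add_cancel])
  rw [← e a c X, ← e b d Y, add_add_add_comm, add_eq_right] at h
  obtain ⟨ha, hb⟩ := pow_dvd_of_combination_eq_zero hXY k _ _ h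
  rw [← ZMod.natCast_eq_zero_iff, ZMod.natCast_zmod_val, sub_eq_zero] at ha hb
  exact ⟨ha, hb⟩

/-- For such elements, the points of level `k` generate `W[p^k]`. -/
theorem exists_combination_eq {X Y : Tate W p}
    (hXY : ∀ a b : ℕ, a • at' 1 X + b • at' 1 Y = 0 → p ∣ a ∧ p ∣ b) (x : Tate W p) (k : ℕ) :
    ∃ a b : ℕ, a • at' k X + b • at' k Y = at' k x := by
  have := finite_torsion hΔ (pow_ne_zero k hp.out.ne_zero)
  have : NeZero (p ^ k) := ⟨pow_ne_zero k hp.out.ne_zero⟩
  have hmem : ∀ a b : ℕ, p ^ k • (a • at' k X + b • at' k Y) = 0 := fun a b => by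
    rw [nsmul_add, smul_comm, pow_nsmul_self, smul_comm, pow_nsmul_self, nsmul_zero, nsmul_zero,
      add_zero]
  let f : ZMod (p ^ k) × ZMod (p ^ k) → {P : Pts W // p ^ k • P = 0} :=
    fun ab => ⟨ab.1.val • at' k X + ab.2.val • at' k Y, hmem _ _⟩
  have hf : Function.Injective f := fun ab cd h => by
    obtain ⟨ha, hb⟩ := natCast_eq_of_combination_eq hXY (congrArg Subtype.val h)
    rw [ZMod.natCast_zmod_val, ZMod.natCast_zmod_val] at ha hb
    exact Prod.ext ha hb
  have hbij : Function.Bijective f := (Function.Injective.bijective_of_nat_card_le hf (by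
    rw [natCard_torsion hΔ (pow_ne_zero k hp.out.ne_zero), Nat.card_prod, Nat.card_zmod,
      pow_two]))
  obtain ⟨ab, hab⟩ := hbij.2 ⟨at' k x, pow_nsmul_self x k⟩
  exact ⟨_, _, congrArg Subtype.val hab⟩

omit hΔ in
/-- A sequence of residues modulo `p ^ k`, compatible in `k`, is the reduction of a `p`-adic
integer. -/
theorem exists_toZModPow_eq (c : ℕ → ℕ) (hc : ∀ k, (c (k + 1) : ZMod (p ^ k)) = c k) :
    ∃ L : ℤ_[p], ∀ k, PadicInt.toZModPow k L = c k := by
  obtain ⟨L, hL⟩ := GaloisBasic.exists_limit_of_succ (IsLocalRing.maximalIdeal ℤ_[p])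
    (fun k => (c k : ℤ_[p])) fun k => by
      rw [PadicInt.maximalIdeal_eq_span_p, Ideal.span_singleton_pow, ← PadicInt.ker_toZModPow,
        RingHom.mem_ker, map_sub, map_natCast, map_natCast, hc k, sub_self]
  refine ⟨L, fun k => ?_⟩
  have := hL k
  rwa [PadicInt.maximalIdeal_eq_span_p, Ideal.span_singleton_pow, ← PadicInt.ker_toZModPow,
    RingHom.mem_ker, map_sub, map_natCast, sub_eq_zero] at this

/-- **`T_p W` is free of rank two over `ℤ_p`.** -/
theorem exists_basis : Nonempty (Module.Basis (Fin 2) ℤ_[p] (Tate W p)) := by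
  classical
  obtain ⟨X, Y, hXY⟩ := exists_pair (p := p) hΔ
  let φ : (Fin 2 → ℤ_[p]) →ₗ[ℤ_[p]] Tate W p :=
    { toFun := fun v => v 0 • X + v 1 • Y
      map_add' := fun v w => by
        rw [Pi.add_apply, Pi.add_apply, add_smul (R := ℤ_[p]) (M := Tate W p) (v 0) (w 0) X,
          add_smul (R := ℤ_[p]) (M := Tate W p) (v 1) (w 1) Y]; abel
      map_smul' := fun c v => by
        simp only [Pi.smul_apply, smul_eq_mul, RingHom.id_apply, smul_add, smul_smul] }
  have hφ : ∀ (v : Fin 2 → ℤ_[p]) (k : ℕ), at' k (φ v) =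
      (PadicInt.toZModPow k (v 0)).val • at' k X + (PadicInt.toZModPow k (v 1)).val • at' k Y :=
    fun v k => by show at' k (v 0 • X + v 1 • Y) = _; rw [map_add, at'_smul_val, at'_smul_val]
  have hinj : Function.Injective φ := (injective_iff_map_eq_zero φ).2 fun v hv => by
    have h : ∀ k, ∀ i, PadicInt.toZModPow k (v i) = 0 := fun k i => by
      have h0 := hφ v k
      rw [hv, map_zero] at h0
      obtain ⟨ha, hb⟩ := pow_dvd_of_combination_eq_zero hXY k _ _ h0.symm
      rw [← ZMod.natCast_zmod_val (PadicInt.toZModPow k (v i)), ZMod.natCast_eq_zero_iff]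
      fin_cases i
      · exact ha
      · exact hb
    funext i
    exact PadicInt.ext_of_toZModPow.1 fun k => by rw [h k i, Pi.zero_apply, map_zero]
  have hsurj : Function.Surjective φ := by
    intro x
    choose a b hab using exists_combination_eq hΔ hXY x
    have hcomp : ∀ k, (a (k + 1) : ZMod (p ^ k)) = a k ∧ (b (k + 1) : ZMod (p ^ k)) = b k := by
      intro k
      have h := congrArg (fun Z => p • Z) (hab (k + 1))
      simp only [nsmul_add, smul_comm p (a (k + 1)), smul_comm p (b (k + 1))] at h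
      rw [nsmul_at'_succ, nsmul_at'_succ, nsmul_at'_succ, ← hab k] at h
      exact natCast_eq_of_combination_eq hXY h
    obtain ⟨α, hα⟩ := exists_toZModPow_eq a fun k => (hcomp k).1
    obtain ⟨β, hβ⟩ := exists_toZModPow_eq b fun k => (hcomp k).2
    refine ⟨![α, β], Tate.ext fun k => ?_⟩
    show at' k (α • X + β • Y) = _
    rw [map_add, at'_smul _ _ (hα k), at'_smul _ _ (hβ k), hab]
  exact ⟨Module.Basis.ofEquivFun (LinearEquiv.ofBijective φ ⟨hinj, hsurj⟩).symm⟩

end Basis

section Galois

instance : SMul GQ (Tate W p) where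
  smul σ x := ⟨fun k => σ • at' k x, by
      show σ • at' 0 x = 0
      rw [at'_zero, ECLocal.galois_smul_zero],
    fun k => by
      show p • (σ • at' (k + 1) x) = σ • at' k x
      rw [← ECLocal.galois_smul_nsmul, nsmul_at'_succ]⟩

omit hp in
/-- The Galois action is layerwise. -/
theorem at'_galois_smul (σ : GQ) (x : Tate W p) (k : ℕ) : at' k (σ • x) = σ • at' k x := rfl

/-- The Galois action on `T_p W`, as `ℤ_p`-linear maps. -/
def galEnd : GQ →* Module.End ℤ_[p] (Tate W p) where
  toFun σ :=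
    { toFun := fun x => σ • x
      map_add' := fun x y => Tate.ext fun k => by
        rw [at'_galois_smul, map_add, map_add, at'_galois_smul, at'_galois_smul]
        exact smul_add σ (at' k x) (at' k y)
      map_smul' := fun a x => Tate.ext fun k => by
        rw [RingHom.id_apply, at'_galois_smul, at'_smul_val, at'_smul_val, at'_galois_smul,
          ← ECLocal.galois_smul_nsmul] }
  map_one' := LinearMap.ext fun x => Tate.ext fun k => one_smul GQ _
  map_mul' σ τ := LinearMap.ext fun x => Tate.ext fun k => mul_smul σ τ _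

/-- The endomorphism attached to `σ` is the action of `σ`. -/
theorem galEnd_apply (σ : GQ) (x : Tate W p) : galEnd σ x = σ • x := rfl

/-- Modulo `p ^ n` the action factors through the number field generated by `W[p^n]`. -/
theorem isAdicContinuous (hΔ : W.Δ ≠ 0) :
    GaloisActionIsAdicContinuous ℤ_[p] (galEnd (W := W) (p := p)) := by
  intro n
  have := finite_torsion hΔ (pow_ne_zero n hp.out.ne_zero)
  obtain ⟨L, hL, h⟩ := EC.exists_finiteDimensional_fixing (W.map (Int.castRingHom ℚ))
    (Set.range fun P : {P : Pts W // p ^ n • P = 0} => P.1) (Set.finite_range _)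
  refine ⟨L, hL, fun σ hσ x => ?_⟩
  have h0 : at' n (σ • x - x) = 0 := by
    rw [map_sub, at'_galois_smul, h σ hσ _ ⟨⟨_, pow_nsmul_self x n⟩, rfl⟩, sub_self]
  rw [galEnd_apply, ← pow_nsmul_shift _ n h0, ← Nat.cast_smul_eq_nsmul ℤ_[p], Nat.cast_pow,
    PadicInt.maximalIdeal_eq_span_p, Ideal.span_singleton_pow]
  exact Submodule.smul_mem_smul (Ideal.mem_span_singleton_self _) Submodule.mem_top

end Galois

end Tate

variable {W p} [Fact p.Prime]

/-- **The `p`-adic representation of an integral Weierstrass curve**: the Galois group of `ℚ`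
acting on `T_p W`. -/
def tateRep (hΔ : W.Δ ≠ 0) : GaloisRepAdic ℤ_[p] :=
  haveI := Module.Free.of_basis (Tate.exists_basis (p := p) hΔ).some
  haveI := Module.Finite.of_basis (Tate.exists_basis (p := p) hΔ).some
  { V := Tate W p
    finrank_eq := by
      rw [Module.finrank_eq_card_basis (Tate.exists_basis (p := p) hΔ).some, Fintype.card_fin]
    ρ := Tate.galEnd
    isAdicContinuous := Tate.isAdicContinuous hΔ }

end FermatAgent.TateRep
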