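import Fermat.Agent.ECLocal.IntCurve
import Fermat.Agent.EC.PointMap
import Fermat.Prelude.Def_EllipticCurve_FrobeniusTrace

/-!
# Decomposition groups and reduction of points

An element of the decomposition group of a place acts on the residue field and fixes the reduced
curve; the reduction of points is equivariant for these actions.
-/

set_option autoImplicit false

noncomputable section

open WeierstrassCurve
open scoped WeierstrassCurve.Affine

namespace FermatAgent.TateRep

open FermatAgent.ECLocal

local notation "Qbar" => AlgebraicClosure ℚ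
local notation "GQ" => AlgebraicClosure ℚ ≃ₐ[ℚ] AlgebraicClosure ℚ

variable {A : ValuationSubring Qbar} (W : WeierstrassCurve ℤ)

/-- The action of an element of the decomposition group on the residue field. -/
def resEquiv (g : A.decompositionSubgroup ℚ) :
    IsLocalRing.ResidueField A ≃+* IsLocalRing.ResidueField A :=
  MulSemiringAction.toRingEquiv _ (IsLocalRing.ResidueField A) g

/-- The decomposition group acts on the residue field compatibly with reduction. -/
theorem resEquiv_residue (g : A.decompositionSubgroup ℚ) (x : A) :
    resEquiv g (IsLocalRing.residue A x) = IsLocalRing.residue A (g • x) :=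
  (IsLocalRing.ResidueField.residue_smul _ g x).symm

/-- The reduced curve is fixed by the action on the residue field. -/
theorem map_spc (g : A.decompositionSubgroup ℚ) :
    (spc (modelAt W A)).map (resEquiv g).toRingHom = spc (modelAt W A) := by
  rw [spc, WeierstrassCurve.map_map, map_modelAt_eq, map_modelAt_eq]

theorem mem_iff_of_mem_decomposition {σ : GQ} (hσ : σ ∈ A.decompositionSubgroup ℚ) (x : Qbar) :
    σ x ∈ A ↔ x ∈ A := by
  rw [← A.valuation_le_one_iff, ← A.valuation_le_one_iff,
    valuation_map_of_mem_decomposition A σ hσ]

/-- Normalised coordinates commute with the decomposition group. -/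
theorem rep_galois_smul (g : A.decompositionSubgroup ℚ)
    (P : ((W.map (Int.castRingHom ℚ))⁄Qbar).Point) (i : Fin 3) :
    (rep (toGen W A (g.1 • P)) i : Qbar) = g.1 (rep (toGen W A P) i : Qbar) := by
  have hc := isConj_toGen W A g.1 P
  generalize toGen W A (g.1 • P) = R' at hc
  generalize toGen W A P = R at hc
  rcases R with _ | ⟨x, y, hxy⟩
  · obtain rfl : R' = 0 := hc
    rw [← Affine.Point.zero_def, rep_zero]
    fin_cases i <;> simp
  obtain ⟨h', rfl⟩ := hc
  by_cases hx : x ∈ A
  · rw [rep_some_mem hxy hx, rep_some_mem h' ((mem_iff_of_mem_decomposition g.2 x).2 hx)]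
    fin_cases i <;> simp
  · rw [rep_some_not_mem hxy hx,
      rep_some_not_mem h' fun hh => hx ((mem_iff_of_mem_decomposition g.2 x).1 hh)]
    fin_cases i <;> simp

/-- The reduced representatives of conjugate points are conjugate. -/
theorem repk_galois_smul (g : A.decompositionSubgroup ℚ)
    (P : ((W.map (Int.castRingHom ℚ))⁄Qbar).Point) :
    repk (toGen W A (g.1 • P)) = resEquiv g ∘ repk (toGen W A P) := funext fun i => by
  show IsLocalRing.residue A _ = resEquiv g (IsLocalRing.residue A _)
  rw [resEquiv_residue]
  exact congrArg _ (Subtype.ext (rep_galois_smul W g P i))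

/-- The decomposition group preserves nonsingular reduction. -/
theorem isE0_galois_smul (g : A.decompositionSubgroup ℚ)
    {P : ((W.map (Int.castRingHom ℚ))⁄Qbar).Point} (hP : IsE0 (toGen W A P)) :
    IsE0 (toGen W A (g.1 • P)) := by
  unfold IsE0 at hP ⊢
  rw [repk_galois_smul]
  have h := (Projective.map_nonsingular (W' := (spc (modelAt W A)).toProjective)
    (f := (resEquiv g).toRingHom) (resEquiv g).injective (repk (toGen W A P))).2 hP
  rw [show ((spc (modelAt W A)).toProjective.map (resEquiv g).toRingHom) =
    (spc (modelAt W A)).toProjective from map_spc W g] at h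
  exact h

variable [DecidableEq (IsLocalRing.ResidueField A)]

/-- Reduction commutes with the decomposition group. -/
theorem red_galois_smul (g : A.decompositionSubgroup ℚ)
    {P : ((W.map (Int.castRingHom ℚ))⁄Qbar).Point} (hP : IsE0 (toGen W A P)) :
    red (toGen W A (g.1 • P)) = EC.mapPoint (resEquiv g).toRingHom (map_spc W g)
      (red (toGen W A P)) := by
  have h' := isE0_galois_smul W g hP
  have hc := isConj_toGen W A g.1 P
  generalize toGen W A (g.1 • P) = R' at hc h'
  generalize toGen W A P = R at hc hP
  rcases R with _ | ⟨x, y, hxy⟩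
  · obtain rfl : R' = 0 := hc
    rw [← Affine.Point.zero_def, red_zero, map_zero]
  obtain ⟨hns, rfl⟩ := hc
  by_cases hx : x ∈ A
  · rw [red_some_of_mem hns ((mem_iff_of_mem_decomposition g.2 x).2 hx) h',
      red_some_of_mem hxy hx hP, EC.mapPoint_some]
    simp only [Affine.Point.some.injEq]
    constructor <;>
    · show _ = resEquiv g _
      rw [resEquiv_residue]
      exact congrArg _ (Subtype.ext rfl)
  · rw [((isE1_some_iff hns).2 fun hh =>
      hx ((mem_iff_of_mem_decomposition g.2 x).1 hh)).red_eq_zero,
      ((isE1_some_iff hxy).2 hx).red_eq_zero, map_zero]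

end FermatAgent.TateRep
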