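import Fermat.Agent.TateRep.NodalFrobenius
import Fermat.Agent.TateRep.Reduction
import Fermat.Agent.EC.GoodPrimeTrace
import Fermat.Agent.GaloisBasic.Frobenius

/-!
# Torsion at a prime of multiplicative reduction

Frobenius multiplies the torsion of order prime to `q` with nonsingular reduction by `± q`, the
sign being `a_q - 1`; at least `n` points of order dividing `n` have nonsingular reduction.
-/

set_option autoImplicit false

noncomputable section

open WeierstrassCurve
open scoped WeierstrassCurve.Affine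

namespace FermatAgent.TateRep

open FermatAgent.ECLocal

local notation "Qbar" => AlgebraicClosure ℚ
local notation "GQ" => AlgebraicClosure ℚ ≃ₐ[ℚ] AlgebraicClosure ℚ

variable {W : WeierstrassCurve ℤ} {q : ℕ} {A : ValuationSubring Qbar}

/-- Reduction commutes with integral multiples of points with nonsingular reduction. -/
theorem red_zsmul {K : Type*} [Field K] [DecidableEq K] {B : ValuationSubring K}
    [DecidableEq (IsLocalRing.ResidueField B)] {V : WeierstrassCurve B}
    {P : (gen V).toAffine.Point} (hP : IsE0 P) (z : ℤ) :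
    IsE0 (z • P) ∧ red (z • P) = z • red P := by
  refine ⟨mem_zeroComponent.mp ((zeroComponent V).zsmul_mem (mem_zeroComponent.mpr hP) z), ?_⟩
  have h := map_zsmul (redHom V) z ⟨P, mem_zeroComponent.mpr hP⟩
  rw [redHom_apply, redHom_apply, AddSubgroup.coe_zsmul] at h
  exact h

/-- The fixed points of Frobenius on the reduced curve are the `𝔽_q`-points. -/
theorem natCard_fixed_residue [DecidableEq (IsLocalRing.ResidueField A)] (hq : q.Prime)
    (hA : A.LiesOverPrime q) {σ : GQ} (hσ : A.IsFrobeniusAt σ q) :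
    Nat.card {P : (spc (modelAt W A)).toAffine.Point //
      EC.mapPoint (resEquiv ⟨σ, hσ.mem_decompositionSubgroup⟩).toRingHom
        (map_spc W ⟨σ, hσ.mem_decompositionSubgroup⟩) P = P} = (W.reductionMod q).card := by
  have := Fact.mk hq
  let k := IsLocalRing.ResidueField A
  have : CharP k q := residueChar A hA
  let : Algebra (ZMod q) k := ZMod.algebra k q
  let e : k ≃+* k := resEquiv ⟨σ, hσ.mem_decompositionSubgroup⟩
  have hfix : ∀ c : ZMod q, e (algebraMap (ZMod q) k c) = algebraMap (ZMod q) k c :=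
    fun c => RingHom.congr_fun
      (RingHom.ext_zmod (e.toRingHom.comp (algebraMap (ZMod q) k)) (algebraMap (ZMod q) k)) c
  let σk : k ≃ₐ[ZMod q] k := AlgEquiv.ofRingEquiv (f := e) hfix
  have hσk : ∀ x : k, σk x = x ^ Nat.card (ZMod q) := fun x => by
    rw [Nat.card_zmod]; exact hσ.smul_residue_eq x
  have hspc : (spc (modelAt W A)).toAffine = ((W.reductionMod q)⁄k).toAffine := by
    rw [spc, map_modelAt_eq, WeierstrassCurve.reductionMod, EC.intMap_baseChange_eq]
  rw [← EC.natCard_fixed_eq_card (W.reductionMod q) σk hσk]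
  refine Nat.card_congr (Equiv.subtypeEquiv (pointCongr hspc).toEquiv fun P => ?_)
  rcases P with _ | ⟨x, y, h⟩
  · rw [← Affine.Point.zero_def]
    exact iff_of_true (map_zero _)
      (by rw [AddEquiv.toEquiv_eq_coe, AddEquiv.coe_toEquiv, map_zero]; rfl)
  · rw [AddEquiv.toEquiv_eq_coe, AddEquiv.coe_toEquiv, pointCongr_some, EC.mapPoint_some,
      Affine.Point.algEquiv_smul_def, Affine.Point.map_some]
    simp only [Affine.Point.some.injEq]
    rfl

section

variable (hq : q.Prime) (hA : A.LiesOverPrime q) (hΔ0 : W.Δ ≠ 0) (hΔ : (q : ℤ) ∣ W.Δ)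
  (hc4 : ¬(q : ℤ) ∣ W.c₄)
include hq hA hΔ0 hΔ hc4

omit hq hA hΔ0 hΔ hc4 in
lemma residue_translation_smul (r t : A) : (⟨1, IsLocalRing.residue A r, 0,
    IsLocalRing.residue A t⟩ : VariableChange (IsLocalRing.ResidueField A)) • spc (modelAt W A) =
      spc (translation r t • modelAt W A) := by
  rw [← translate_spc]
  congr 1

omit hq hA hΔ0 hΔ hc4 in
/-- The node of the reduced curve given by a node model. -/
def nodeAtOfModel {r t : A} (M : NodeModel (translation r t • modelAt W A)) :
    NodeAt (spc (modelAt W A)) where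
  r := IsLocalRing.residue A r
  t := IsLocalRing.residue A t
  nodal :=
    { α := IsLocalRing.residue A M.α
      β := IsLocalRing.residue A M.β
      a₁_eq := by rw [residue_translation_smul]; exact M.nodal.a₁_eq
      a₂_eq := by rw [residue_translation_smul]; exact M.nodal.a₂_eq
      a₃_eq := by rw [residue_translation_smul]; exact M.nodal.a₃_eq
      a₄_eq := by rw [residue_translation_smul]; exact M.nodal.a₄_eq
      a₆_eq := by rw [residue_translation_smul]; exact M.nodal.a₆_eq
      ne := M.residue_ne }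

/-- The reduced curve has a node. -/
theorem nonempty_nodeAt : Nonempty (NodeAt (spc (modelAt W A))) := by
  obtain ⟨r, t, ⟨M⟩, -⟩ := exists_nodeModel_at W A hq hA hΔ0 hΔ hc4
  exact ⟨nodeAtOfModel M⟩

variable {σ : GQ} (hσ : A.IsFrobeniusAt σ q)
include hσ

/-- **`a_q - 1` is a sign `ε`, and Frobenius multiplies torsion of order prime to `q` with
nonsingular reduction by `ε q`.** -/
theorem frobenius_eq_zsmul :
    (W.apOfModel q - 1) ^ 2 = 1 ∧
      ∀ (n : ℕ) (P : ((W.map (Int.castRingHom ℚ))⁄Qbar).Point), ¬q ∣ n →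
        IsE0 (toGen W A P) → n • P = 0 → σ • P = ((W.apOfModel q - 1) * q) • P := by
  classical
  obtain ⟨S⟩ := nonempty_nodeAt hq hA hΔ0 hΔ hc4
  have := Fact.mk hq
  let k := IsLocalRing.ResidueField A
  have : IsAlgClosed k := isAlgClosed_residueField A
  have : CharP k q := residueChar A hA
  let g : A.decompositionSubgroup ℚ := ⟨σ, hσ.mem_decompositionSubgroup⟩
  set e : k ≃+* k := resEquiv g with he
  have heq : ∀ x : k, e x = x ^ q := fun x => hσ.smul_residue_eq x
  have hcard : Nat.card {P : (spc (modelAt W A)).toAffine.Point //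
      EC.mapPoint e.toRingHom (map_spc W g) P = P} = (W.reductionMod q).card :=
    natCard_fixed_residue hq hA hσ
  have hS := S.natCard_fixed e (map_spc W g) heq hq.one_lt
  rw [hcard] at hS
  have hsign : W.apOfModel q - 1 = S.sign e := by
    rw [WeierstrassCurve.apOfModel, WeierstrassCurve.traceOfFrobenius, Nat.card_zmod, hS]
    ring
  rw [hsign]
  refine ⟨S.sign_sq e, fun n P hn h0 hP => ?_⟩
  have h0' : IsE0 (toGen W A (σ • P)) := isE0_galois_smul W g h0
  apply (toGen W A).injective
  rw [map_zsmul, ← sub_eq_zero]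
  obtain ⟨h0z, hred⟩ := red_zsmul h0 (S.sign e * q)
  have h1 : IsE1 (toGen W A (σ • P) - (S.sign e * q) • toGen W A P) := by
    refine IsE1.sub_of_red_eq h0' h0z ?_
    rw [show σ • P = g.1 • P from rfl, red_galois_smul W g h0, S.mapPoint_eq_zsmul e _ heq]
    exact hred.symm
  refine h1.eq_zero_of_nsmul_eq_zero (natCast_residue_ne_zero hq hA hn) ?_
  rw [nsmul_sub, ← map_nsmul, ← galois_smul_nsmul, hP, galois_smul_zero, map_zero,
    smul_comm, ← map_nsmul, hP, map_zero, smul_zero, sub_zero]

end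

/-- At most `n` points of `E[n]` have nonsingular reduction, for `n` prime to `q`. -/
theorem natCard_torsion_isE0_le (hq : q.Prime) (hA : A.LiesOverPrime q) (hΔ0 : W.Δ ≠ 0)
    (hΔ : (q : ℤ) ∣ W.Δ) (hc4 : ¬(q : ℤ) ∣ W.c₄) {n : ℕ} (hqn : ¬q ∣ n) :
    Nat.card {P : ((W.map (Int.castRingHom ℚ))⁄Qbar).Point //
      n • P = 0 ∧ IsE0 (toGen W A P)} ≤ n := by
  classical
  obtain ⟨S⟩ := nonempty_nodeAt hq hA hΔ0 hΔ hc4
  have : NeZero n := ⟨fun h => hqn (h ▸ dvd_zero q)⟩
  let χ : {P : ((W.map (Int.castRingHom ℚ))⁄Qbar).Point // n • P = 0 ∧ IsE0 (toGen W A P)} →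
      rootsOfUnity n (IsLocalRing.ResidueField A) := fun P =>
    ⟨Units.mk0 (S.chi (red (toGen W A P.1))) (S.chi_ne_zero _), by
      rw [mem_rootsOfUnity, Units.ext_iff, Units.val_pow_eq_pow_val, Units.val_mk0, Units.val_one,
        ← zpow_natCast, ← S.chi_zsmul, natCast_zsmul, ← (P.2.2.nsmul n).2, ← map_nsmul, P.2.1,
        map_zero, red_zero, S.chi_zero]⟩
  refine (Nat.card_le_card_of_injective χ fun P Q h => ?_).trans (card_rootsOfUnity _ n)
  have h1 : red (toGen W A P.1) = red (toGen W A Q.1) :=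
    S.chi_injective (congrArg
      (fun z : rootsOfUnity n (IsLocalRing.ResidueField A) =>
        ((z : (IsLocalRing.ResidueField A)ˣ) : IsLocalRing.ResidueField A)) h)
  refine Subtype.ext ((toGen W A).injective (eq_of_sub_eq_zero ?_))
  refine (IsE1.sub_of_red_eq P.2.2 Q.2.2 h1).eq_zero_of_nsmul_eq_zero
    (natCast_residue_ne_zero hq hA hqn) ?_
  rw [nsmul_sub, ← map_nsmul, ← map_nsmul, P.2.1, Q.2.1, map_zero, sub_zero]

/-- At most `n` elements of the component group are killed by `n`. -/
theorem natCard_componentGroup_le {K : Type*} [Field K] {B : ValuationSubring K}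
    {V : WeierstrassCurve B} (M : NodeModel V) {n : ℕ} (hn : 0 < n) :
    Finite {x : NodeModel.ComponentGroup V // n • x = 0} ∧
      Nat.card {x : NodeModel.ComponentGroup V // n • x = 0} ≤ n := by
  classical
  have : NeZero n := ⟨hn.ne'⟩
  have hrep : ∀ x : {x : NodeModel.ComponentGroup V // n • x = 0},
      ∃ (a : B.ValueGroup) (j : ℤ), a ≠ 0 ∧ x.1 = NodeModel.cl V a ∧
        B.valuation (V.a₆ : K) ^ j = a ^ n := by
    rintro ⟨x, hx⟩
    obtain ⟨u, hu⟩ := QuotientGroup.mk_surjective (Additive.toMul x)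
    have he : x = NodeModel.cl V (u : B.ValueGroup) := by
      rw [NodeModel.cl, dif_neg u.ne_zero, Units.mk0_val, hu, ofMul_toMul]
    have e : ∀ m : ℕ, NodeModel.cl V ((u : B.ValueGroup) ^ m) =
        m • NodeModel.cl V (u : B.ValueGroup) := by
      intro m
      induction m with
      | zero => rw [pow_zero, NodeModel.cl_one, zero_nsmul]
      | succ j ih => rw [pow_succ, NodeModel.cl_mul (pow_ne_zero _ u.ne_zero) u.ne_zero, ih,
          succ_nsmul]
    obtain ⟨j, hj⟩ := (NodeModel.cl_eq_zero_iff M (pow_ne_zero n u.ne_zero)).1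
      ((e n).trans (he ▸ hx))
    exact ⟨_, j, u.ne_zero, he, hj⟩
  choose a j ha hx hj using hrep
  have hinj : Function.Injective fun x => (j x : ZMod n) := by
    intro x y hxy
    obtain ⟨m, hm⟩ := (ZMod.intCast_eq_intCast_iff_dvd_sub _ _ n).1 hxy
    refine Subtype.ext ?_
    rw [hx x, hx y]
    have hy : a y = a x * B.valuation (V.a₆ : K) ^ m := by
      refine (pow_left_inj₀ zero_le zero_le hn.ne').1 ?_
      rw [mul_pow, ← hj y, ← hj x, ← zpow_natCast, ← zpow_mul, ← zpow_add₀ M.c_ne_zero]
      congr 1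
      linear_combination hm
    rw [hy, NodeModel.cl_mul (ha x) (zpow_ne_zero m M.c_ne_zero), NodeModel.cl_c_zpow M, add_zero]
  exact ⟨Finite.of_injective _ hinj, (Finite.card_le_of_injective' hinj fun h => absurd h
    (by rw [Nat.card_zmod]; exact hn.ne')).trans (Nat.card_zmod n).le⟩

/-- At least `n` points of `E[n]` have nonsingular reduction. -/
theorem le_natCard_torsion_isE0 (hq : q.Prime) (hA : A.LiesOverPrime q) (hΔ0 : W.Δ ≠ 0)
    (hΔ : (q : ℤ) ∣ W.Δ) (hc4 : ¬(q : ℤ) ∣ W.c₄) {n : ℕ} (hn : 0 < n) :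
    n ≤ Nat.card {P : ((W.map (Int.castRingHom ℚ))⁄Qbar).Point //
      n • P = 0 ∧ IsE0 (toGen W A P)} := by
  classical
  obtain ⟨r, t, ⟨M⟩, -⟩ := exists_nodeModel_at W A hq hA hΔ0 hΔ hc4
  let T := AddEquiv.ofBijective _ (translatePoint_bijective (modelAt W A) r t)
  have hΔ' := EC.intMap_Δ_ne_zero hΔ0
  let E := Submodule.torsionBy ℤ ((W.map (Int.castRingHom ℚ))⁄Qbar).Point n
  have : Finite E := EC.finite_torsionBy_rat _ hΔ' hn.ne'
  let c : E →+ NodeModel.ComponentGroup (translation r t • modelAt W A) :=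
    M.componentHom.comp (T.symm.toAddMonoidHom.comp
      ((toGen W A).toAddMonoidHom.comp E.subtype.toAddMonoidHom))
  have hmem : ∀ x : E, n • (x : ((W.map (Int.castRingHom ℚ))⁄Qbar).Point) = 0 := fun x => by
    rw [← natCast_zsmul]; exact (Submodule.mem_torsionBy_iff _ _).1 x.2
  obtain ⟨hfin, hle⟩ := natCard_componentGroup_le M hn
  have hrange : Nat.card c.range ≤ n := by
    refine le_trans ?_ hle
    refine Nat.card_le_card_of_injective (fun x => ⟨x.1, ?_⟩) fun x y h =>
      Subtype.ext (congrArg Subtype.val h :)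
    obtain ⟨y, hy⟩ := x.2
    rw [← hy, ← map_nsmul, show n • y = 0 from Subtype.ext (hmem y), map_zero]
  have hker : Nat.card c.ker ≤ Nat.card {P : ((W.map (Int.castRingHom ℚ))⁄Qbar).Point //
      n • P = 0 ∧ IsE0 (toGen W A P)} := by
    have : Finite {P : ((W.map (Int.castRingHom ℚ))⁄Qbar).Point //
        n • P = 0 ∧ IsE0 (toGen W A P)} :=
      Finite.of_injective (fun P => (⟨P.1, (Submodule.mem_torsionBy_iff _ _).2
        (by rw [natCast_zsmul]; exact P.2.1)⟩ : E))
        fun P Q h => Subtype.ext (congrArg Subtype.val h :)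
    refine Nat.card_le_card_of_injective (fun x => ⟨x.1.1, hmem x.1, ?_⟩) fun x y h =>
      Subtype.ext (Subtype.ext (congrArg Subtype.val h :))
    have h1 := M.componentHom_eq_zero_iff.1 (show M.componentHom (T.symm (toGen W A x.1.1)) = 0
      from x.2)
    rw [← T.apply_symm_apply (toGen W A x.1.1)]
    exact (isE0_translatePoint _ r t _).2 h1
  have hcard := c.ker.card_eq_card_quotient_mul_card_addSubgroup
  rw [EC.natCard_torsionBy_rat _ hΔ' hn.ne',
    Nat.card_congr (QuotientAddGroup.quotientKerEquivRange c).toEquiv] at hcard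
  have := Nat.mul_le_mul hrange hker
  rw [← hcard, pow_two] at this
  exact Nat.le_of_mul_le_mul_left this hn

end FermatAgent.TateRep
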