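import Fermat.Agent.TateRep.Det
import Fermat.Agent.TateRep.MultPrime
import Fermat.Agent.Mazur.Kummer

/-!
# The Tate module at the primes different from `p`

At a good `q ≠ p` reduction is injective on `p`-power torsion and carries `σ` to Frobenius, so
`T_p W` is unramified and Frobenius satisfies `φ² - a_q φ + q = 0`.  At a multiplicative `q ≠ p`
the torsion with nonsingular reduction is a line in `T_p W`, fixed by inertia, containing
`(σ - 1) T_p W` for inertia `σ`, and on which Frobenius is `(a_q - 1) q`.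
-/

set_option autoImplicit false

noncomputable section

open WeierstrassCurve Polynomial IsLocalRing
open scoped WeierstrassCurve.Affine

namespace FermatAgent.TateRep

open FermatAgent.ECLocal

local notation "Qbar" => AlgebraicClosure ℚ
local notation "GQ" => AlgebraicClosure ℚ ≃ₐ[ℚ] AlgebraicClosure ℚ

section Plane

variable {R : Type*} [CommRing R] [Nontrivial R] {M : Type*} [AddCommGroup M] [Module R M]
  (b : Module.Basis (Fin 2) R M) (f : Module.End R M)

include b

omit [Nontrivial R] in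
/-- An automorphism of a plane with `f² - a f + det f = 0` has trace `a`. -/
theorem trace_eq_of_quadratic [IsDomain R] (hf : Function.Surjective f) {a : R}
    (h : ∀ x, f (f x) - a • f x + LinearMap.det f • x = 0) : LinearMap.trace R M f = a := by
  obtain ⟨x, hx⟩ := hf (b 0)
  have h1 := EC.quadratic_plane b f x
  rw [← h x, hx] at h1
  have h2 : (a - LinearMap.trace R M f) • b 0 = 0 := by
    rw [sub_smul]; linear_combination (norm := module) h1
  have := congrArg (fun v => b.repr v 0) h2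
  simp at this
  exact (sub_eq_zero.1 this).symm

end Plane

variable {W : WeierstrassCurve ℤ} {p : ℕ} [hp : Fact p.Prime]

/-- Galois acts on `T_p W` by automorphisms. -/
theorem surjective_galEnd (σ : GQ) :
    Function.Surjective (Tate.galEnd σ : Module.End ℤ_[p] (Tate W p)) := fun x =>
  ⟨Tate.galEnd σ⁻¹ x, by rw [← Module.End.mul_apply, ← map_mul, mul_inv_cancel, map_one]; rfl⟩

theorem not_dvd_pow {q : ℕ} (hq : q.Prime) (hqp : q ≠ p) (k : ℕ) : ¬q ∣ p ^ k := fun h =>
  hqp ((Nat.prime_dvd_prime_iff_eq hq hp.out).1 (hq.dvd_of_dvd_pow h))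

/-- The cyclotomic character is trivial on inertia at `q ≠ p`. -/
theorem padCyclo_inertia {q : ℕ} (hq : q.Prime) (hqp : q ≠ p) {A : ValuationSubring Qbar}
    (hA : A.LiesOverPrime q) {σ : GQ} (hσ : σ ∈ A.inertiaSubgroupIn ℚ) :
    ES.padCyclo p σ = 1 := by
  refine PadicInt.ext_of_toZModPow.1 fun k => ?_
  obtain ⟨ζ, hζ⟩ := ES.exists_primitive_qbar p k
  rw [map_one, ES.toZModPow_padCyclo_eq p hζ (c := 1) (by
    rw [pow_one]
    exact Mazur.inertia_fixes_rootsOfUnity hq hA (not_dvd_pow hq hqp k)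
      (pow_ne_zero _ hp.out.ne_zero) hσ hζ.pow_eq_one), Nat.cast_one]

/-- The characteristic polynomial of `ρ(σ)` from the trace and the cyclotomic character. -/
theorem charpoly_tateRep (hΔ : W.Δ ≠ 0) (σ : GQ) {a d : ℤ_[p]}
    (ha : LinearMap.trace ℤ_[p] (Tate W p) (Tate.galEnd σ) = a)
    (hd : ES.padCyclo p σ = d) :
    LinearMap.charpoly ((tateRep (p := p) hΔ).ρ σ) = X ^ 2 - C a * X + C d := by
  obtain ⟨b⟩ := Tate.exists_basis (p := p) hΔ
  have := Module.Free.of_basis b
  have := Module.Finite.of_basis b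
  rw [← ha, ← hd, ← det_tateRep hΔ σ]
  exact EC.charpoly_plane b _

section Good

variable {q : ℕ} (hq : q.Prime) (hqp : q ≠ p) (hgood : W.IsGoodPrimeFor q)
include hq hqp hgood

/-- **`T_p W` is unramified at a good prime `q ≠ p`.** -/
theorem tateRep_isUnramifiedAt (hΔ : W.Δ ≠ 0) : (tateRep (p := p) hΔ).IsUnramifiedAt q :=
  fun A hA σ hσ => LinearMap.ext fun (x : Tate W p) => Tate.ext fun k => by
    show σ • Tate.at' k x = Tate.at' k x
    exact inertia_fixes_of_good hq hA hgood (not_dvd_pow hq hqp k) hσ (Tate.pow_nsmul_self x k)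

/-- **At a good prime `q ≠ p` the characteristic polynomial of Frobenius is
`X² - a_q X + q`.** -/
theorem charpoly_frobenius_good (hΔ : W.Δ ≠ 0) {A : ValuationSubring Qbar}
    (hA : A.LiesOverPrime q) {σ : GQ} (hσ : A.IsFrobeniusAt σ q) :
    LinearMap.charpoly ((tateRep (p := p) hΔ).ρ σ) =
      X ^ 2 - C (W.apOfModel q : ℤ_[p]) * X + C (q : ℤ_[p]) := by
  classical
  have := Fact.mk hq
  let k := IsLocalRing.ResidueField A
  have : IsAlgClosed k := isAlgClosed_residueField A
  have : CharP k q := residueChar A hA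
  let g : A.decompositionSubgroup ℚ := ⟨σ, hσ.mem_decompositionSubgroup⟩
  have hres : IsLocalRing.residue A (modelAt W A).Δ ≠ 0 :=
    residue_modelAt_Δ hq hA hgood
  have : (spc (modelAt W A)).IsElliptic := ⟨isUnit_iff_ne_zero.2 (by
    show (spc (modelAt W A)).Δ ≠ 0
    rw [WeierstrassCurve.map_Δ]; exact hres)⟩
  have hq' : ∀ x : k, resEquiv g x = x ^ (q ^ 1) := fun x => by
    rw [pow_one]; exact hσ.smul_residue_eq x
  have key : ∀ (n : ℕ) (P : Pts W), ¬q ∣ n → n • P = 0 →
      σ • σ • P - W.apOfModel q • (σ • P) + (q : ℤ) • P = 0 := by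
    intro n P hn hP
    have hE0 : ∀ R : Pts W, IsE0 (toGen W A R) := fun R => isE0_of_residue_Δ_ne_zero hres _
    have hquad := EC.frobenius_quadratic (V := spc (modelAt W A)) one_pos (map_spc W g) hq'
      (red (toGen W A P))
    have hfc : EC.fixedCard (σ := resEquiv g) (map_spc W g) = (W.reductionMod q).card :=
      natCard_fixed_residue hq hA hσ
    rw [hfc, pow_one, ← red_galois_smul W g (hE0 P), ← red_galois_smul W g (hE0 _)] at hquad
    obtain ⟨h0a, hra⟩ := red_zsmul (hE0 (σ • P)) (W.apOfModel q)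
    obtain ⟨h0b, hrb⟩ := red_zsmul (hE0 P) (q : ℤ)
    apply (toGen W A).injective
    rw [map_zero, map_add, map_sub, map_zsmul, map_zsmul]
    set U := toGen W A (σ • σ • P)
    set V := W.apOfModel q • toGen W A (σ • P)
    set Z := (q : ℤ) • toGen W A P
    have e1 := IsE0.add (hE0 (σ • σ • P)) h0a.neg.1
    have e2 := IsE0.add e1.1 h0b
    rw [sub_eq_add_neg]
    refine ((red_eq_zero_iff e2.1).1 ?_).eq_zero_of_nsmul_eq_zero
      (natCast_residue_ne_zero hq hA hn) ?_
    · rw [e2.2, e1.2, h0a.neg.2, hra, hrb, ← sub_eq_add_neg]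
      refine Eq.trans ?_ hquad
      rw [WeierstrassCurve.apOfModel, WeierstrassCurve.traceOfFrobenius, Nat.card_zmod]
    · have hz : ∀ R : Pts W, n • R = 0 → n • toGen W A R = 0 := fun R hR => by
        rw [← map_nsmul, hR, map_zero]
      have hσP : n • (σ • P) = 0 := by rw [← galois_smul_nsmul, hP, galois_smul_zero]
      rw [nsmul_add, nsmul_add, neg_nsmul,
        hz _ (by rw [← galois_smul_nsmul, hσP, galois_smul_zero]), smul_comm, hz _ hσP,
        zsmul_zero, smul_comm, hz _ hP, zsmul_zero, neg_zero, add_zero, add_zero]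
  obtain ⟨b⟩ := Tate.exists_basis (p := p) hΔ
  have hcyc : ES.padCyclo p σ = (q : ℤ_[p]) := ES.padCyclo_frobenius p hq hqp hA hσ
  refine charpoly_tateRep hΔ σ (trace_eq_of_quadratic b _ (surjective_galEnd σ) fun x => ?_) hcyc
  rw [show LinearMap.det (Tate.galEnd σ : Module.End ℤ_[p] (Tate W p)) = (q : ℤ_[p]) from
    (det_tateRep hΔ σ).trans hcyc, Int.cast_smul_eq_zsmul, Nat.cast_smul_eq_nsmul,
    ← natCast_zsmul]
  refine Tate.ext fun k => ?_
  rw [map_add, map_sub, map_zsmul, map_zsmul, map_zero]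
  exact key _ _ (not_dvd_pow hq hqp k) (Tate.pow_nsmul_self x k)

end Good

section Bad

variable {q : ℕ} (hq : q.Prime) (hqp : q ≠ p) (hΔ : W.Δ ≠ 0) (hbad : (q : ℤ) ∣ W.Δ)
  (hc4 : ¬(q : ℤ) ∣ W.c₄)
include hq hqp hΔ hbad hc4

/-- **Inertia at a multiplicative prime `q ≠ p` acts unipotently on `T_p W`.** -/
theorem tateRep_isUnipotentOnInertiaAt : (tateRep (p := p) hΔ).IsUnipotentOnInertiaAt q := by
  intro A hA σ hσ
  classical
  obtain ⟨b⟩ := Tate.exists_basis (p := p) hΔ
  have hd := padCyclo_inertia (p := p) hq hqp hA hσ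
  have hsq : ∀ x : Tate W p, σ • (σ • x - x) = σ • x - x := fun x => Tate.ext fun k => by
    rw [Tate.at'_galois_smul, map_sub, Tate.at'_galois_smul]
    set P := Tate.at' k x
    have h1 : W.InZeroComponentAt A (P - σ • P) :=
      inertia_sub_inZeroComponentAt hq hA hΔ hbad hc4 hσ P
    have h0 : p ^ k • (P - σ • P) = 0 := by
      rw [nsmul_sub, ← galois_smul_nsmul, Tate.pow_nsmul_self, galois_smul_zero, sub_self]
    have h2 := inertia_fixes_of_inZeroComponentAt hq hA (not_dvd_pow hq hqp k) hσ h1 h0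
    rw [← neg_sub P, smul_neg, h2]
  have ht : LinearMap.trace ℤ_[p] (Tate W p) (Tate.galEnd σ) = 2 := by
    refine trace_eq_of_quadratic b _ (surjective_galEnd σ) fun x => ?_
    rw [show LinearMap.det (Tate.galEnd σ : Module.End ℤ_[p] (Tate W p)) = (1 : ℤ_[p]) from
      (det_tateRep hΔ σ).trans hd, one_smul]
    show σ • σ • x - (2 : ℤ_[p]) • (σ • x) + x = 0
    have e : σ • (σ • x - x) = σ • σ • x - σ • x := map_sub (Tate.galEnd σ) _ _
    have h := hsq x
    rw [e, sub_eq_iff_eq_add] at h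
    rw [h, show (2 : ℤ_[p]) • (σ • x) = σ • x + σ • x from two_smul ℤ_[p] (σ • x)]
    abel
  rw [charpoly_tateRep hΔ σ ht hd]
  simp only [map_ofNat, map_one]
  ring

/-- Multiplication by `p` carries the `p ^ (k + 1)`-torsion with nonsingular reduction onto the
`p ^ k`-torsion with nonsingular reduction, both groups being cyclic of full order. -/
theorem exists_nsmul_eq_of_isE0 {A : ValuationSubring Qbar} (hA : A.LiesOverPrime q) (k : ℕ)
    {P : Pts W} (hP : p ^ k • P = 0) (hP0 : IsE0 (toGen W A P)) :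
    ∃ Q : Pts W, p ^ (k + 1) • Q = 0 ∧ IsE0 (toGen W A Q) ∧ p • Q = P := by
  classical
  let S : ℕ → Type := fun k => {P : Pts W // p ^ k • P = 0 ∧ IsE0 (toGen W A P)}
  have hfin : ∀ k, Finite (S k) := fun k =>
    haveI := Tate.finite_torsion hΔ (pow_ne_zero k hp.out.ne_zero)
    Finite.of_injective (fun P => (⟨P.1, P.2.1⟩ : {P : Pts W // p ^ k • P = 0}))
      fun P Q h => Subtype.ext (congrArg Subtype.val h :)
  have hcard : ∀ k, Nat.card (S k) = p ^ k := fun k => le_antisymm
    (natCard_torsion_isE0_le hq hA hΔ hbad hc4 (not_dvd_pow hq hqp k))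
    (le_natCard_torsion_isE0 hq hA hΔ hbad hc4 (pow_pos hp.out.pos k))
  let G : AddSubgroup (Pts W) :=
    { carrier := {P | p ^ (k + 1) • P = 0 ∧ IsE0 (toGen W A P)}
      zero_mem' := ⟨nsmul_zero _, by rw [map_zero]; exact isE0_zero⟩
      add_mem' := fun {a b} ha hb => ⟨by rw [nsmul_add, ha.1, hb.1, add_zero],
        by rw [map_add]; exact (IsE0.add ha.2 hb.2).1⟩
      neg_mem' := fun {a} ha => ⟨by rw [neg_nsmul, ha.1, neg_zero],
        by rw [map_neg]; exact ha.2.neg.1⟩ }
  have : Finite G := hfin (k + 1)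
  let μ : G →+ Pts W := (nsmulAddMonoidHom p).comp G.subtype
  have hker : Nat.card μ.ker ≤ p := by
    refine le_trans ?_ ((hcard 1).le.trans (pow_one p).le)
    have := hfin 1
    refine Nat.card_le_card_of_injective (fun P => (⟨P.1.1, ?_, P.1.2.2⟩ : S 1)) fun P Q h =>
      Subtype.ext (Subtype.ext (congrArg Subtype.val h :))
    rw [pow_one]; exact P.2
  have hG : Nat.card G = p ^ (k + 1) := hcard (k + 1)
  have hrange : p ^ k ≤ Nat.card μ.range := by
    have h := μ.ker.card_eq_card_quotient_mul_card_addSubgroup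
    rw [Nat.card_congr (QuotientAddGroup.quotientKerEquivRange μ).toEquiv, hG, pow_succ] at h
    have h1 := Nat.mul_le_mul_left (Nat.card μ.range) hker
    rw [← h] at h1
    exact Nat.le_of_mul_le_mul_right h1 hp.out.pos
  let ι : μ.range → S k := fun R => ⟨R.1, by
    obtain ⟨Q, hQ⟩ := R.2
    rw [← hQ]
    refine ⟨?_, ?_⟩
    · show p ^ k • (p • Q.1) = 0
      rw [← mul_nsmul', ← pow_succ]; exact Q.2.1
    · show IsE0 (toGen W A (p • Q.1))
      rw [map_nsmul]; exact (Q.2.2.nsmul p).1⟩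
  have := hfin k
  have hbij := Function.Injective.bijective_of_nat_card_le
    (f := ι) (fun a b h => Subtype.ext (congrArg Subtype.val h :)) ((hcard k).le.trans hrange)
  obtain ⟨R, hR⟩ := hbij.2 ⟨P, hP, hP0⟩
  obtain ⟨Q, hQ⟩ := R.2
  exact ⟨Q.1, Q.2.1, Q.2.2, hQ.trans (congrArg Subtype.val hR :)⟩

/-- Some nonzero element of `T_p W` has nonsingular reduction at all levels. -/
theorem exists_isE0_vector {A : ValuationSubring Qbar} (hA : A.LiesOverPrime q) :
    ∃ x : Tate W p, x ≠ 0 ∧ ∀ k, IsE0 (toGen W A (Tate.at' k x)) := by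
  classical
  let S : ℕ → Type := fun k => {P : Pts W // p ^ k • P = 0 ∧ IsE0 (toGen W A P)}
  choose next hnext using fun (k : ℕ) (P : S k) => show ∃ Q : S (k + 1), p • Q.1 = P.1 from
    let ⟨Q, h1, h2, h3⟩ := exists_nsmul_eq_of_isE0 hq hqp hΔ hbad hc4 hA k P.2.1 P.2.2
    ⟨⟨Q, h1, h2⟩, h3⟩
  obtain ⟨P, hP0⟩ : ∃ P : S 1, P.1 ≠ 0 := by
    by_contra hall
    push Not at hall
    have : Subsingleton (S 1) := ⟨fun a b => Subtype.ext ((hall a).trans (hall b).symm)⟩
    have h : p ≤ Nat.card (S 1) := (pow_one p).ge.trans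
      (le_natCard_torsion_isE0 hq hA hΔ hbad hc4 (pow_pos hp.out.pos 1))
    exact absurd (h.trans (Finite.card_le_one_iff_subsingleton.2 inferInstance))
      hp.out.one_lt.not_ge
  let f : ∀ j, S (j + 1) := fun j => Nat.rec P (fun j Q => next (j + 1) Q) j
  let x : Tate W p := ⟨fun k => match k with
      | 0 => 0
      | j + 1 => (f j).1, rfl, fun k => by
    cases k with
    | zero =>
      show p • P.1 = 0
      exact (congrArg (fun n : ℕ => n • P.1) (pow_one p)).symm.trans P.2.1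
    | succ k => exact hnext (k + 1) (f k)⟩
  refine ⟨x, fun h => hP0 ?_, fun k => ?_⟩
  · exact (congrArg (fun z : Tate W p => Tate.at' 1 z) h).trans (map_zero _)
  · cases k with
    | zero => show IsE0 (toGen W A 0); rw [map_zero]; exact isE0_zero
    | succ k => exact (f k).2.2

/-- **At a multiplicative prime `q ≠ p`: `a_q - 1` is a sign `ε`, and the characteristic polynomial
of Frobenius is `X² - ε(q + 1) X + q`.** -/
theorem charpoly_frobenius_mult {A : ValuationSubring Qbar}
    (hA : A.LiesOverPrime q) {σ : GQ} (hσ : A.IsFrobeniusAt σ q) :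
    (W.apOfModel q - 1) ^ 2 = 1 ∧
    LinearMap.charpoly ((tateRep (p := p) hΔ).ρ σ) =
      X ^ 2 - C (((W.apOfModel q - 1) * (q + 1) : ℤ) : ℤ_[p]) * X + C (q : ℤ_[p]) := by
  classical
  obtain ⟨hsq, hfr⟩ := frobenius_eq_zsmul hq hA hΔ hbad hc4 hσ
  refine ⟨hsq, ?_⟩
  set ε := W.apOfModel q - 1
  obtain ⟨b⟩ := Tate.exists_basis (p := p) hΔ
  obtain ⟨v, hv0, hv⟩ := exists_isE0_vector hq hqp hΔ hbad hc4 hA
  have hcyc : ES.padCyclo p σ = (q : ℤ_[p]) := ES.padCyclo_frobenius p hq hqp hA hσ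
  have hfv : Tate.galEnd σ v = ((ε * q : ℤ) : ℤ_[p]) • v := by
    have hz : ((ε * q : ℤ) : ℤ_[p]) • v = (ε * q : ℤ) • v := by
      exact Int.cast_smul_eq_zsmul ℤ_[p] _ v
    rw [Tate.galEnd_apply, hz]
    refine Tate.ext fun k => ?_
    rw [Tate.at'_galois_smul, map_zsmul]
    exact hfr _ _ (not_dvd_pow hq hqp k) (hv k) (Tate.pow_nsmul_self v k)
  refine charpoly_tateRep hΔ σ ?_ hcyc
  have hz : ((ε * q : ℤ) : ℤ_[p]) ≠ 0 := Int.cast_ne_zero.2 (mul_ne_zero
    (fun h => by rw [h] at hsq; norm_num at hsq) (Nat.cast_ne_zero.2 hq.ne_zero))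
  rw [EC.trace_eq_of_eigenvector b _ hv0 hz (d := (ε : ℤ_[p])) hfv ?_]
  · push_cast; ring
  · rw [show LinearMap.det (Tate.galEnd σ : Module.End ℤ_[p] (Tate W p)) = (q : ℤ_[p]) from
      (det_tateRep hΔ σ).trans hcyc]
    have := congrArg (Int.cast : ℤ → ℤ_[p]) hsq
    push_cast at this ⊢
    linear_combination -(q : ℤ_[p]) * this

end Bad

end FermatAgent.TateRep
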