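import Fermat.Agent.ECLocal.Nodal
import Fermat.Agent.EC.PointMap
import Mathlib.RingTheory.RootsOfUnity.AlgebraicallyClosed
import Mathlib.RingTheory.RootsOfUnity.EnoughRootsOfUnity
import Mathlib

/-!
# Frobenius on the points of a nodal cubic

An automorphism of the field fixing the coefficients fixes the node, and permutes the two tangent
slopes; Frobenius multiplies the nonsingular points by `± q`.
-/

set_option autoImplicit false

noncomputable section

open WeierstrassCurve

namespace FermatAgent.TateRep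

open FermatAgent.ECLocal FermatAgent.EC

variable {k : Type*} [Field k]

/-- The image of a node under an injective map. -/
def _root_.FermatAgent.ECLocal.Nodal.mapHom {W : WeierstrassCurve k} (N : Nodal W) (f : k →+* k)
    (hf : Function.Injective f) : Nodal (W.map f) where
  α := f N.α
  β := f N.β
  a₁_eq := by simp [N.a₁_eq]
  a₂_eq := by simp [N.a₂_eq]
  a₃_eq := by simp [N.a₃_eq]
  a₄_eq := by simp [N.a₄_eq]
  a₆_eq := by simp [N.a₆_eq]
  ne := fun h => N.ne (hf h)

/-- A node of a cubic, with its tangent slopes. -/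
structure NodeAt (V : WeierstrassCurve k) where
  /-- abscissa -/
  r : k
  /-- ordinate -/
  t : k
  /-- the translated cubic is nodal at the origin -/
  nodal : Nodal ((⟨1, r, 0, t⟩ : VariableChange k) • V)

/-- The translated curve has only one node. -/
theorem eq_zero_of_translate {V : WeierstrassCurve k} {r t d e : k}
    (N : Nodal ((⟨1, r, 0, t⟩ : VariableChange k) • V))
    (N' : Nodal ((⟨1, r + d, 0, t + e⟩ : VariableChange k) • V)) : d = 0 ∧ e = 0 := by
  have h1 := N.a₁_eq; have h3 := N.a₃_eq; have h4 := N.a₄_eq; have h6 := N.a₆_eq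
  have h2 := N.a₂_eq
  have g3 := N'.a₃_eq; have g4 := N'.a₄_eq; have g6 := N'.a₆_eq
  simp only [variableChange_def, inv_one, Units.val_one, one_pow, one_mul, mul_zero, zero_mul,
    add_zero, sub_zero, ne_eq, OfNat.ofNat_ne_zero, not_false_eq_true, zero_pow]
    at h1 h2 h3 h4 h6 g3 g4 g6
  have hd : d = 0 := by
    refine (pow_eq_zero_iff three_ne_zero).1 ?_
    linear_combination d * g4 - e * g3 - 2 * g6 + (d : k) * h4 - e * h3 + 2 * h6
  subst hd
  have he2 : e ^ 2 = 0 := by linear_combination -g6 + h6 - e * h3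
  exact ⟨rfl, (pow_eq_zero_iff two_ne_zero).1 he2⟩

namespace NodeAt

variable {V : WeierstrassCurve k} (S : NodeAt V)

section Aut

variable (φ : k ≃+* k) (hφ : V.map φ.toRingHom = V)

include hφ in
/-- An automorphism fixing the coefficients fixes the node. -/
theorem map_node : φ S.r = S.r ∧ φ S.t = S.t := by
  have N' : Nodal ((⟨1, S.r + (φ S.r - S.r), 0, S.t + (φ S.t - S.t)⟩ : VariableChange k) • V) := by
    have h : ((⟨1, S.r, 0, S.t⟩ : VariableChange k) • V).map φ.toRingHom =
        (⟨1, φ S.r, 0, φ S.t⟩ : VariableChange k) • V := by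
      rw [← WeierstrassCurve.map_variableChange, hφ]
      simp [VariableChange.map]
    rw [add_sub_cancel, add_sub_cancel, ← h]
    exact S.nodal.mapHom φ.toRingHom φ.injective
  obtain ⟨hd, he⟩ := eq_zero_of_translate S.nodal N'
  exact ⟨sub_eq_zero.1 hd, sub_eq_zero.1 he⟩

include hφ in
/-- An automorphism fixing the coefficients permutes the slopes. -/
theorem map_slopes :
    (φ S.nodal.α = S.nodal.α ∧ φ S.nodal.β = S.nodal.β) ∨
      (φ S.nodal.α = S.nodal.β ∧ φ S.nodal.β = S.nodal.α) := by
  obtain ⟨hr, ht⟩ := S.map_node φ hφ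
  have e1 := congrArg WeierstrassCurve.a₁ hφ
  have e2 := congrArg WeierstrassCurve.a₂ hφ
  have g1 := S.nodal.a₁_eq
  have g2 := S.nodal.a₂_eq
  simp only [variableChange_def, inv_one, Units.val_one, one_pow, one_mul, mul_zero, zero_mul,
    add_zero, sub_zero, ne_eq, OfNat.ofNat_ne_zero, not_false_eq_true, zero_pow] at g1 g2
  have h1 : φ S.nodal.α + φ S.nodal.β = S.nodal.α + S.nodal.β := by
    have h := congrArg φ g1
    simp only [map_a₁, RingEquiv.toRingHom_eq_coe, RingHom.coe_coe] at e1
    rw [map_neg, map_add] at h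
    linear_combination h - e1 - g1
  have h2 : φ S.nodal.α * φ S.nodal.β = S.nodal.α * S.nodal.β := by
    have h := congrArg φ g2
    simp only [map_a₂, RingEquiv.toRingHom_eq_coe, RingHom.coe_coe] at e2
    rw [map_add, map_mul, map_ofNat, map_neg, map_mul] at h
    linear_combination h - e2 - g2 - 3 * hr
  have hfac : (φ S.nodal.α - S.nodal.α) * (φ S.nodal.α - S.nodal.β) = 0 := by
    linear_combination -h2 + φ S.nodal.α * h1
  rcases mul_eq_zero.1 hfac with h | h
  · exact Or.inl ⟨sub_eq_zero.1 h, by linear_combination h1 - h⟩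
  · exact Or.inr ⟨sub_eq_zero.1 h, by linear_combination h1 - h⟩

/-- `1` if the automorphism fixes the two tangent slopes, `-1` if it exchanges them. -/
def sign : ℤ := open Classical in if φ S.nodal.α = S.nodal.α then 1 else -1

/-- The sign squares to one. -/
theorem sign_sq : S.sign φ ^ 2 = 1 := by
  unfold sign; split <;> norm_num

end Aut

variable [DecidableEq k]

/-- The translation to the node. -/
def pull : ((⟨1, S.r, 0, S.t⟩ : VariableChange k) • V).toAffine.Point ≃+ V.toAffine.Point :=
  AddEquiv.ofBijective (vcHom _ V) ⟨vcHom_injective _ V, vcHom_surjective _ V⟩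

/-- The parameter of a nonsingular point. -/
def chi (P : V.toAffine.Point) : k := S.nodal.param (S.pull.symm P)

/-- The character of the nodal cubic is `1` at the origin. -/
theorem chi_zero : S.chi 0 = 1 := by rw [chi, map_zero]; rfl

/-- The character of the nodal cubic does not vanish. -/
theorem chi_ne_zero (P : V.toAffine.Point) : S.chi P ≠ 0 := S.nodal.param_ne_zero _

/-- The parameter is multiplicative. -/
theorem chi_add (P Q : V.toAffine.Point) : S.chi (P + Q) = S.chi P * S.chi Q := by
  rw [chi, map_add, S.nodal.param_add]; rfl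

/-- The parameter of `-P` is the inverse of that of `P`. -/
theorem chi_neg (P : V.toAffine.Point) : S.chi (-P) = (S.chi P)⁻¹ := by
  refine eq_inv_of_mul_eq_one_left ?_
  rw [← S.chi_add, neg_add_cancel, S.chi_zero]

/-- The character of the nodal cubic turns multiples into powers. -/
theorem chi_zsmul (n : ℤ) (P : V.toAffine.Point) : S.chi (n • P) = S.chi P ^ n := by
  induction n using Int.induction_on with
  | zero => rw [zero_zsmul, S.chi_zero, zpow_zero]
  | succ i ih => rw [add_zsmul, one_zsmul, S.chi_add, ih, zpow_add_one₀ (S.chi_ne_zero P)]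
  | pred i ih => rw [sub_zsmul, one_zsmul, ← sub_eq_add_neg, sub_eq_add_neg, S.chi_add,
      S.chi_neg, ih, zpow_sub_one₀ (S.chi_ne_zero P)]

/-- A point is determined by its parameter. -/
theorem chi_injective : Function.Injective S.chi := fun P Q h => by
  refine eq_of_sub_eq_zero (S.pull.symm.injective ?_)
  rw [map_zero]
  refine S.nodal.param_eq_one_iff.1 ?_
  show S.chi (P - Q) = 1
  rw [sub_eq_add_neg, S.chi_add, S.chi_neg, h, mul_inv_cancel₀ (S.chi_ne_zero Q)]

/-- Every nonzero element is a parameter. -/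
theorem exists_chi_eq {u : k} (hu : u ≠ 0) : ∃ P : V.toAffine.Point, S.chi P = u := by
  by_cases h1 : u = 1
  · exact ⟨0, S.chi_zero.trans h1.symm⟩
  set N := S.nodal
  have hu1 : u - 1 ≠ 0 := sub_ne_zero.2 h1
  have hd : N.β - N.α ≠ 0 := sub_ne_zero.2 N.ne.symm
  set x : k := u * (N.β - N.α) ^ 2 / (u - 1) ^ 2 with hx
  set v : k := (N.β - N.α) * x / (u - 1) with hv
  set y : k := v + N.β * x with hy
  have hU : y - N.α * x = u * v := by
    rw [hy, hv]; field_simp; ring_nf
  have hV : y - N.β * x = v := by rw [hy]; ring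
  have hx0 : x ≠ 0 := div_ne_zero (mul_ne_zero hu (pow_ne_zero 2 hd)) (pow_ne_zero 2 hu1)
  have heq : ((⟨1, S.r, 0, S.t⟩ : VariableChange k) • V).toAffine.Equation x y := by
    rw [N.equation_iff, hU, hV, hv, hx]; field_simp
  have hns : ((⟨1, S.r, 0, S.t⟩ : VariableChange k) • V).toAffine.Nonsingular x y := by
    rw [Affine.nonsingular_iff']
    refine ⟨heq, ?_⟩
    rw [N.a₁_eq, N.a₂_eq, N.a₃_eq, N.a₄_eq]
    by_contra hc
    rw [not_or, not_not, not_not] at hc
    obtain ⟨hX, hY⟩ := hc
    refine pow_ne_zero 3 hx0 ?_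
    have he := N.equation_iff.1 heq
    linear_combination -x * hX - y * hY + 2 * he
  refine ⟨S.pull (.some x y hns), ?_⟩
  rw [chi, AddEquiv.symm_apply_apply, N.param_some, hU, hV, mul_div_assoc, div_self, mul_one]
  exact div_ne_zero (mul_ne_zero hd hx0) hu1

variable (φ : k ≃+* k) (hφ : V.map φ.toRingHom = V)

/-- The parameter of the conjugate point is the conjugate parameter raised to the sign. -/
theorem chi_mapPoint (P : V.toAffine.Point) :
    S.chi (mapPoint φ.toRingHom hφ P) = φ (S.chi P) ^ S.sign φ := by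
  obtain ⟨Q, rfl⟩ := S.pull.surjective P
  obtain ⟨hr, ht⟩ := S.map_node φ hφ
  have hs : ∀ u : k, u ≠ 0 → ∀ a b c d : k,
      (if φ S.nodal.α = S.nodal.α then (a, b) else (b, a)) = (c, d) → u = a / b →
      c / d = u ^ S.sign φ := by
    classical
    intro u _ a b c d he hu
    unfold sign
    split_ifs with h
    · rw [if_pos h, Prod.mk.injEq] at he; rw [← he.1, ← he.2, zpow_one, hu]
    · rw [if_neg h, Prod.mk.injEq] at he; rw [← he.1, ← he.2, zpow_neg, zpow_one, hu, inv_div]
  rcases Q with _ | ⟨x, y, h⟩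
  · rw [← Affine.Point.zero_def, map_zero, map_zero, S.chi_zero, map_one, one_zpow]
  have h' : ((⟨1, S.r, 0, S.t⟩ : VariableChange k) • V).toAffine.Nonsingular (φ x) (φ y) := by
    have h0 := (nonsingular_variableChange_iff ⟨1, S.r, 0, S.t⟩ V x y).mpr h
    have h1 := (Affine.map_nonsingular (W := V.toAffine) (f := φ.toRingHom) φ.injective _ _).mpr h0
    rw [← nonsingular_variableChange_iff]
    rw [show (V.toAffine.map φ.toRingHom) = V.toAffine from hφ] at h1
    simpa [hr, ht] using h1
  have e : mapPoint φ.toRingHom hφ (S.pull (.some x y h)) = S.pull (.some (φ x) (φ y) h') := by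
    show mapPoint φ.toRingHom hφ (.some _ _ _) = .some _ _ _
    simp only [mapPoint_some, Affine.Point.some.injEq]
    exact ⟨by simp [hr], by simp [ht]⟩
  rw [e, chi, chi, AddEquiv.symm_apply_apply, AddEquiv.symm_apply_apply]
  show (φ y - S.nodal.α * φ x) / (φ y - S.nodal.β * φ x) = _
  refine hs _ (by simpa using (S.nodal.param_ne_zero (.some x y h))) (φ (y - S.nodal.α * x))
    (φ (y - S.nodal.β * x)) _ _ ?_ (map_div₀ φ _ _)
  rcases S.map_slopes φ hφ with ⟨ha, hb⟩ | ⟨ha, hb⟩
  · rw [if_pos ha, map_sub, map_sub, map_mul, map_mul, ha, hb]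
  · rw [if_neg fun h => S.nodal.ne (h.symm.trans ha), map_sub, map_sub, map_mul, map_mul, ha, hb]

variable {q : ℕ} (hq : ∀ x : k, φ x = x ^ q)
include hq

/-- **Frobenius multiplies the nonsingular points by `q` times the sign.** -/
theorem mapPoint_eq_zsmul (P : V.toAffine.Point) :
    mapPoint φ.toRingHom hφ P = (S.sign φ * q : ℤ) • P := by
  refine S.chi_injective ?_
  rw [S.chi_mapPoint, hq, S.chi_zsmul, ← zpow_natCast, ← zpow_mul, mul_comm]

/-- A nodal cubic over `𝔽_q` has `q - ε` nonsingular rational points, `ε` the sign. -/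
theorem natCard_fixed [IsAlgClosed k] [CharP k q] (hq1 : 1 < q) :
    (Nat.card {P : V.toAffine.Point // mapPoint φ.toRingHom hφ P = P} : ℤ) = q - S.sign φ := by
  obtain ⟨m, hm⟩ : ∃ m : ℕ, (m : ℤ) = q - S.sign φ :=
    ⟨((q : ℤ) - S.sign φ).toNat, Int.toNat_of_nonneg (by
      unfold sign; split <;> omega)⟩
  have hm0 : (m : k) ≠ 0 := by
    have h : (m : k) = -(S.sign φ : k) := by
      rw [← Int.cast_natCast, hm, Int.cast_sub, Int.cast_natCast, CharP.cast_eq_zero, zero_sub]
    rw [h]
    unfold sign; split <;> simp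
  have hiff : ∀ P : V.toAffine.Point,
      mapPoint φ.toRingHom hφ P = P ↔ S.chi P ^ (m : ℕ) = 1 := by
    intro P
    rw [S.mapPoint_eq_zsmul φ hφ hq, ← sub_eq_zero, ← S.chi_injective.eq_iff, S.chi_zero,
      sub_eq_add_neg, S.chi_add, S.chi_zsmul, S.chi_neg, ← zpow_sub_one₀ (S.chi_ne_zero P),
      ← zpow_natCast, hm]
    have hs := S.sign_sq φ
    have e : S.sign φ * q - 1 = S.sign φ * (q - S.sign φ) := by linear_combination hs
    rw [e]
    unfold sign
    split
    · rw [one_mul]
    · rw [neg_one_mul, zpow_neg, inv_eq_one]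
  have : NeZero (m : k) := ⟨hm0⟩
  have : NeZero m := ⟨fun h => hm0 (by rw [h, Nat.cast_zero])⟩
  have hbij : Nat.card {P : V.toAffine.Point // mapPoint φ.toRingHom hφ P = P} =
      Nat.card (rootsOfUnity m k) := by
    refine Nat.card_eq_of_bijective (fun P => ⟨Units.mk0 (S.chi P.1) (S.chi_ne_zero _), by
      rw [mem_rootsOfUnity, Units.ext_iff]; simpa using (hiff P.1).1 P.2⟩) ⟨fun P Q h => ?_, ?_⟩
    · exact Subtype.ext (S.chi_injective (congrArg (fun z : rootsOfUnity m k => ((z : kˣ) : k)) h))
    · rintro ⟨u, hu⟩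
      obtain ⟨P, hP⟩ := S.exists_chi_eq u.ne_zero
      refine ⟨⟨P, (hiff P).2 ?_⟩, Subtype.ext (Units.ext hP)⟩
      rw [hP]
      rw [mem_rootsOfUnity, Units.ext_iff] at hu
      simpa using hu
  rw [hbij, ← hm, HasEnoughRootsOfUnity.natCard_rootsOfUnity]

end NodeAt

end FermatAgent.TateRep
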